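/-
S55 / 36b-IDELE-COH (helper54), file 1: for a finite cyclic group `Q = ⟨g⟩` of order `n` and the
character `χ : Q → ZMod n`, `χ g = 1`, EVERY class of `H²(Q, C)` is a carry class
`δχ ∪ a` (`a ∈ C^Q`), and `a ↦ δχ ∪ a` induces an explicit isomorphism
`Ĥ⁰(Q, C) = C^Q / N C ≃ H²(Q, C)`.
Mathlib + GlobalInv91.Carry (helper91) + HerbrandHcyc54.
-/
import Mathlib
import Fermat.Agent.S55.GlobalInv91.Carry
import Fermat.Agent.S55.HerbrandHcyc54

set_option autoImplicit false

namespace Fermat.Agent.S55.IdeleCoh54.CyclicCarry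

open groupCohomology Fermat.Agent.S55.GlobalInv91

universe u

variable {k Q : Type u} [CommRing k] [Group Q] (C : Rep k Q) {n : ℕ} [NeZero n]
variable (χ : Q →* Multiplicative (ZMod n)) (g : Q)

/-! ### Partial sums `F i = ∑_{j<i} f (g^j, g)` -/

/-- `F i = ∑_{j<i} f (g^j, g)`. -/
def partialF (f : Q × Q → C) (i : ℕ) : C := ∑ j ∈ Finset.range i, f (g ^ j, g)

variable {C g}

lemma partialF_zero (f : Q × Q → C) : partialF C g f 0 = 0 := by
  simp [partialF]

lemma partialF_succ (f : Q × Q → C) (i : ℕ) :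
    partialF C g f (i + 1) = partialF C g f i + f (g ^ i, g) := by
  unfold partialF
  rw [Finset.sum_range_succ]

lemma partialF_add (f : Q × Q → C) (m m' : ℕ) :
    partialF C g f (m + m') =
      partialF C g f m + ∑ i ∈ Finset.range m', f (g ^ (m + i), g) := by
  unfold partialF
  rw [Finset.sum_range_add]

omit [NeZero n] in
lemma partialF_add_n (f : Q × Q → C) (hgn : g ^ n = 1) (m : ℕ) :
    partialF C g f (n + m) = partialF C g f n + partialF C g f m := by
  rw [partialF_add]
  congr 1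
  unfold partialF
  refine Finset.sum_congr rfl fun i _ => ?_
  rw [pow_add, hgn, one_mul]

omit [NeZero n] in
lemma partialF_add_mul (f : Q × Q → C) (hgn : g ^ n = 1) (m c : ℕ) :
    partialF C g f (m + n * c) = partialF C g f m + c • partialF C g f n := by
  induction c with
  | zero => simp
  | succ c ih =>
    have : m + n * (c + 1) = n + (m + n * c) := by ring
    rw [this, partialF_add_n f hgn, ih, succ_nsmul]
    abel

/-! ### Consequences of the cocycle identity -/

lemma cocycle_apply_one {f : Q × Q → C} (hf : f ∈ cocycles₂ C) (s : Q) :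
    f (s, 1) = C.ρ s (f (1, 1)) := by
  have h := (mem_cocycles₂_iff f).1 hf s 1 1
  rw [mul_one, mul_one] at h
  exact add_right_cancel h

/-- The main identity: `f (g^i, g^m) = f (g^i, 1) + F (i+m) - F i - g^i • F m`. -/
lemma cocycle_pow_pow {f : Q × Q → C} (hf : f ∈ cocycles₂ C) (i m : ℕ) :
    f (g ^ i, g ^ m) =
      f (g ^ i, 1) + partialF C g f (i + m) - partialF C g f i
        - C.ρ (g ^ i) (partialF C g f m) := by
  induction m with
  | zero =>
    rw [pow_zero, add_zero, partialF_zero, map_zero]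
    abel
  | succ m ih =>
    have h := (mem_cocycles₂_iff f).1 hf (g ^ i) (g ^ m) g
    rw [← pow_add, ← pow_succ] at h
    have e1 : i + (m + 1) = (i + m) + 1 := by ring
    rw [e1, partialF_succ, partialF_succ, map_add]
    -- `h : f (g^(i+m), g) + f (g^i, g^m) = ρ (g^i) (f (g^m, g)) + f (g^i, g^(m+1))`
    have h' : f (g ^ i, g ^ (m + 1)) =
        f (g ^ (i + m), g) + f (g ^ i, g ^ m) - C.ρ (g ^ i) (f (g ^ m, g)) := by
      rw [h]; abel
    rw [h', ih]
    abel

omit [NeZero n] in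
/-- `a₀ = F n` is fixed by `g`. -/
lemma rho_partialF_n {f : Q × Q → C} (hf : f ∈ cocycles₂ C) (hgn : g ^ n = 1) :
    C.ρ g (partialF C g f n) = partialF C g f n := by
  -- sum the cocycle identity at `(g, g^j, g)` over `j < n`
  have hsum : ∑ j ∈ Finset.range n, (f (g * g ^ j, g) + f (g, g ^ j)) =
      ∑ j ∈ Finset.range n, (C.ρ g (f (g ^ j, g)) + f (g, g ^ j * g)) :=
    Finset.sum_congr rfl fun j _ => (mem_cocycles₂_iff f).1 hf g (g ^ j) g
  rw [Finset.sum_add_distrib, Finset.sum_add_distrib] at hsum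
  have cyc : ∀ φ : Q → C, ∑ j ∈ Finset.range n, φ (g ^ (j + 1)) =
      ∑ j ∈ Finset.range n, φ (g ^ j) := by
    intro φ
    have h1 := Finset.sum_range_succ' (fun j => φ (g ^ j)) n
    have h2 := Finset.sum_range_succ (fun j => φ (g ^ j)) n
    rw [h2, hgn, pow_zero] at h1
    exact (add_right_cancel h1).symm
  have e1 : ∑ j ∈ Finset.range n, f (g * g ^ j, g) = partialF C g f n := by
    unfold partialF
    rw [← cyc (fun h => f (h, g))]
    refine Finset.sum_congr rfl fun j _ => ?_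
    rw [pow_succ']
  have e2 : ∑ j ∈ Finset.range n, f (g, g ^ j * g) = ∑ j ∈ Finset.range n, f (g, g ^ j) := by
    rw [← cyc (fun h => f (g, h))]
    refine Finset.sum_congr rfl fun j _ => ?_
    rw [pow_succ]
  rw [e1, e2, ← map_sum] at hsum
  exact (add_right_cancel hsum).symm

/-- An element fixed by a generator is fixed by the whole group. -/
lemma rho_eq_of_generator (hg : ∀ x : Q, x ∈ Subgroup.zpowers g) {a : C} (ha : C.ρ g a = a)
    (h : Q) : C.ρ h a = a := by
  let S : Subgroup Q :=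
    { carrier := {s | C.ρ s a = a}
      one_mem' := by
        change C.ρ 1 a = a
        rw [map_one]; rfl
      mul_mem' := fun {s t} hs ht => by
        change C.ρ (s * t) a = a
        rw [map_mul, Module.End.mul_apply, ht, hs]
      inv_mem' := fun {s} hs => by
        change C.ρ s⁻¹ a = a
        have : C.ρ s⁻¹ (C.ρ s a) = a := by
          rw [← Module.End.mul_apply, ← map_mul, inv_mul_cancel, map_one]; rfl
        rwa [hs] at this }
  have hle : Subgroup.zpowers g ≤ S := Subgroup.zpowers_le.2 ha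
  exact hle (hg h)

variable {χ}

/-- Every element is `g ^ (χ h).val`. -/
lemma eq_pow_val (hg : ∀ x : Q, x ∈ Subgroup.zpowers g) (hgn : g ^ n = 1)
    (hs : chiVal χ g = 1) (h : Q) : h = g ^ (chiVal χ h).val := by
  obtain ⟨m, rfl⟩ := Subgroup.mem_zpowers_iff.1 (hg h)
  -- reduce to a natural exponent
  have hn : (0 : ℤ) < n := by exact_mod_cast Nat.pos_of_ne_zero (NeZero.ne n)
  set r := (m % n).toNat with hr
  have hr' : (r : ℤ) = m % n := Int.toNat_of_nonneg (Int.emod_nonneg m hn.ne')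
  have hm : g ^ m = g ^ r := by
    have : m = m % n + n * (m / n) := (Int.emod_add_mul_ediv m n).symm
    rw [this, zpow_add, zpow_mul, zpow_natCast, hgn, one_zpow, mul_one, ← hr', zpow_natCast]
  rw [hm, chiVal_pow hs]
  have hlt : r < n := by
    have := Int.emod_lt_of_pos m hn
    omega
  rw [ZMod.val_natCast_of_lt hlt]

/-! ### The main theorem -/

/-- **Every 2-cocycle of a finite cyclic group is cohomologous to a carry cocycle.** -/
theorem exists_carry_sub_isCob₂ (hg : ∀ x : Q, x ∈ Subgroup.zpowers g) (hgn : g ^ n = 1)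
    (hs : chiVal χ g = 1) (f : Q × Q → C) (hf : f ∈ cocycles₂ C) :
    ∃ a : C, (∀ h : Q, C.ρ h a = a) ∧ IsCob₂ C (f - carry C χ a) := by
  refine ⟨partialF C g f n, rho_eq_of_generator hg (rho_partialF_n hf hgn), ?_⟩
  refine ⟨fun h => f (1, 1) - partialF C g f (chiVal χ h).val, fun s t => ?_⟩
  rw [Pi.sub_apply, carry_apply]
  have hst := val_add_val n (chiVal χ s) (chiVal χ t)
  have key := cocycle_pow_pow (g := g) hf (chiVal χ s).val (chiVal χ t).val
  rw [← eq_pow_val hg hgn hs s, ← eq_pow_val hg hgn hs t, cocycle_apply_one hf s, hst,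
    partialF_add_mul f hgn] at key
  rw [key]
  beta_reduce
  rw [chiVal_mul, map_sub]
  abel

/-! ### Surjectivity and kernel of `carryH2` -/

section H2

variable (C)

/-- **Every class of `H²(Q, C)`, `Q` finite cyclic, is a carry class.** -/
theorem carryH2_surjective (hg : ∀ x : Q, x ∈ Subgroup.zpowers g) (hgn : g ^ n = 1)
    (hs : chiVal χ g = 1) : Function.Surjective (carryH2 C χ) := by
  intro x
  induction x using H2_induction_on with
  | h f =>
    obtain ⟨a, ha, hcob⟩ := exists_carry_sub_isCob₂ hg hgn hs (f : Q × Q → C) f.2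
    refine ⟨⟨a, ha⟩, ?_⟩
    rw [carryH2_apply, eq_comm, H2π_eq_iff]
    exact (isCob₂_iff_mem C _).1 hcob

variable {C}

/-- The character `χ` is injective. -/
lemma eq_one_of_chi_eq_one (hg : ∀ x : Q, x ∈ Subgroup.zpowers g) (hgn : g ^ n = 1)
    (hs : chiVal χ g = 1) {z : Q} (hz : χ z = 1) : z = 1 := by
  have h0 : chiVal χ z = 0 := by
    change Multiplicative.toAdd (χ z) = 0
    rw [hz]; rfl
  rw [eq_pow_val hg hgn hs z, h0, ZMod.val_zero, pow_zero]

/-- Sums over `g^i`, `i < n`, are sums over the group. -/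
lemma sum_range_pow_eq_sum [Fintype Q] (hg : ∀ x : Q, x ∈ Subgroup.zpowers g) (hgn : g ^ n = 1)
    (hs : chiVal χ g = 1) {M : Type*} [AddCommMonoid M] (φ : Q → M) :
    ∑ i ∈ Finset.range n, φ (g ^ i) = ∑ h : Q, φ h := by
  refine Finset.sum_bij (fun i _ => g ^ i) (fun _ _ => Finset.mem_univ _) ?_ ?_ (fun _ _ => rfl)
  · intro i hi j hj hij
    rw [Finset.mem_range] at hi hj
    have h1 := congrArg (chiVal χ) hij
    rw [chiVal_pow hs, chiVal_pow hs] at h1
    have h2 := congrArg ZMod.val h1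
    rwa [ZMod.val_natCast_of_lt hi, ZMod.val_natCast_of_lt hj] at h2
  · intro h _
    exact ⟨(chiVal χ h).val, Finset.mem_range.2 (ZMod.val_lt _), (eq_pow_val hg hgn hs h).symm⟩

lemma partialNorm_eq_sum [Fintype Q] (hg : ∀ x : Q, x ∈ Subgroup.zpowers g) (hgn : g ^ n = 1)
    (hs : chiVal χ g = 1) (b : C) : partialNorm C g b n = ∑ h : Q, C.ρ h b :=
  sum_range_pow_eq_sum hg hgn hs (fun h => C.ρ h b)

/-- The carry class of `a` vanishes iff `a` is a norm. -/
theorem carryH2_eq_zero_iff_norm [Fintype Q] (hg : ∀ x : Q, x ∈ Subgroup.zpowers g)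
    (hgn : g ^ n = 1) (hs : chiVal χ g = 1) (a : C.ρ.invariants) :
    carryH2 C χ a = 0 ↔ ∃ b : C, (a : C) = ∑ h : Q, C.ρ h b := by
  rw [carryH2_eq_zero_iff]
  constructor
  · intro h
    have hH1 : ∀ f : χ.ker → C, (∀ z w : χ.ker, f (z * w) = C.ρ (z : Q) (f w) + f z) →
        ∃ y : C, ∀ z : χ.ker, f z = C.ρ (z : Q) y - y := by
      -- `H¹` of the trivial group
      intro f hf
      refine ⟨0, fun z => ?_⟩
      have hz : z = 1 := Subtype.ext (eq_one_of_chi_eq_one hg hgn hs z.2)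
      have h1 := hf 1 1
      rw [mul_one] at h1
      have h2 : C.ρ ((1 : χ.ker) : Q) (f 1) = f 1 := by
        rw [Subgroup.coe_one, map_one]; rfl
      rw [h2] at h1
      have h3 : f 1 = 0 := by
        have := congrArg (fun t => t - f 1) h1
        simpa using this.symm
      rw [hz, h3, map_zero, sub_zero]
    obtain ⟨b, _, hb⟩ := exists_norm_of_carry_isCob₂ (χ := χ) (s := g) hs hH1 (fun h => a.2 h) h
    exact ⟨b, by rw [hb, partialNorm_eq_sum hg hgn hs]⟩
  · rintro ⟨b, hb⟩
    rw [hb, ← partialNorm_eq_sum hg hgn hs]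
    exact carry_isCob₂_of_norm hs (fun z hz => by
      rw [eq_one_of_chi_eq_one hg hgn hs hz, map_one]; rfl)

end H2

/-! ### The explicit isomorphism `Ĥ⁰(Q, C) ≃ H²(Q, C)` -/

section Equiv

open Fermat.Agent.S55.Herbrand54 Fermat.Agent.S55.HerbrandCyclic54 Fermat.Agent.S55.HerbrandHcyc54

variable [Fintype Q] (C) (χ) (g)

/-- `ker (g - 1) → C^Q`. -/
def kerToInvariants (hg : ∀ x : Q, x ∈ Subgroup.zpowers g) :
    (cyclicPair (repRhoM C) g).f.ker →+ C.ρ.invariants where
  toFun x := ⟨x.1, fun h => (cyclicPair_f_eq_zero_iff (repRhoM C) hg x.1).1 x.2 h⟩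
  map_zero' := rfl
  map_add' _ _ := rfl

/-- `ker (g - 1) → H²(Q, C)`, `x ↦ δχ ∪ x`. -/
noncomputable def carryKer (hg : ∀ x : Q, x ∈ Subgroup.zpowers g) :
    (cyclicPair (repRhoM C) g).f.ker →+ H2 C :=
  (carryH2 C χ).toAddMonoidHom.comp (kerToInvariants C g hg)

theorem carryKer_eq_zero_iff (hg : ∀ x : Q, x ∈ Subgroup.zpowers g) (hgn : g ^ n = 1)
    (hs : chiVal χ g = 1) (x : (cyclicPair (repRhoM C) g).f.ker) :
    carryKer C χ g hg x = 0 ↔ ∃ y, (cyclicPair (repRhoM C) g).g y = x := by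
  change carryH2 C χ (kerToInvariants C g hg x) = 0 ↔ _
  rw [carryH2_eq_zero_iff_norm hg hgn hs]
  refine exists_congr fun b => ?_
  rw [cyclicPair_g_apply, HerbrandCyclic54.normHom_apply]
  exact eq_comm

/-- **The explicit isomorphism `Ĥ⁰(Q, C) = C^Q / N C ≃ H²(Q, C)`, `[a] ↦ δχ ∪ a`.** -/
noncomputable def carryEquiv (hg : ∀ x : Q, x ∈ Subgroup.zpowers g) (hgn : g ^ n = 1)
    (hs : chiVal χ g = 1) : (cyclicPair (repRhoM C) g).H0 ≃+ H2 C := by
  have hle : (cyclicPair (repRhoM C) g).B0 ≤ (carryKer C χ g hg).ker := by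
    intro x hx
    rw [AddMonoidHom.mem_ker, carryKer_eq_zero_iff C χ g hg hgn hs]
    exact (Pair.mem_B0 _ x).1 hx
  refine AddEquiv.ofBijective (QuotientAddGroup.lift _ (carryKer C χ g hg) hle) ⟨?_, ?_⟩
  · rw [injective_iff_map_eq_zero]
    intro z hz
    obtain ⟨x, rfl⟩ := QuotientAddGroup.mk_surjective z
    rw [QuotientAddGroup.lift_mk, carryKer_eq_zero_iff C χ g hg hgn hs] at hz
    rw [QuotientAddGroup.eq_zero_iff, Pair.mem_B0]
    exact hz
  · intro z
    obtain ⟨a, rfl⟩ := carryH2_surjective C hg hgn hs z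
    have ha : (cyclicPair (repRhoM C) g).f (a : C) = 0 :=
      (cyclicPair_f_eq_zero_iff (repRhoM C) hg (a : C)).2 (fun h => a.2 h)
    exact ⟨QuotientAddGroup.mk ⟨(a : C), ha⟩, rfl⟩

theorem carryEquiv_cls (hg : ∀ x : Q, x ∈ Subgroup.zpowers g) (hgn : g ^ n = 1)
    (hs : chiVal χ g = 1) (a : C) (ha : (cyclicPair (repRhoM C) g).f a = 0) :
    carryEquiv C χ g hg hgn hs ((cyclicPair (repRhoM C) g).cls a ha) =
      carryH2 C χ ⟨a, fun h => (cyclicPair_f_eq_zero_iff (repRhoM C) hg a).1 ha h⟩ := rfl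

end Equiv

/-! ### The canonical character of a generator -/

section Chi

variable (g)

/-- The character `Q → ZMod n` with `g ↦ 1`. -/
noncomputable def chiOfGen (hg : ∀ x : Q, x ∈ Subgroup.zpowers g) (hn : Nat.card Q = n) :
    Q →* Multiplicative (ZMod n) :=
  (zmodMulEquivOfGenerator hg hn).symm.toMonoidHom

omit [NeZero n] in
theorem chiVal_chiOfGen (hg : ∀ x : Q, x ∈ Subgroup.zpowers g) (hn : Nat.card Q = n) :
    chiVal (chiOfGen g hg hn) g = 1 := by
  change Multiplicative.toAdd ((zmodMulEquivOfGenerator hg hn).symm g) = 1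
  rw [zmodMulEquivOfGenerator_symm_apply_generator]
  rfl

omit [NeZero n] in
theorem pow_card_eq_one_of (hn : Nat.card Q = n) : g ^ n = 1 := by
  rw [← hn]
  exact pow_card_eq_one'

end Chi

end Fermat.Agent.S55.IdeleCoh54.CyclicCarry
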