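/-
S55 / leaf 36b-IDELE-COH (helper54), file 2: the unramified invariant on the ℤ-layer of the
idele module, in the `SumSystem` shape of `CycloRecip37.DescendK` (helper37).

`Γ` a finite group (`Gal(L/ℚ)`), `d ∈ Γ` (a Frobenius at `ℓ ∉ S`), `Z : Rep ℤ Γ` with "point
evaluations" `ev γ : Z →+ ℤ` (`γ ∈ Γ`), `ev γ (g • z) = ev (γ g) z`, `ev (d γ) = ev γ`
(`Z = Coind_ψ ℤ`, `ψ.range ≤ ⟨d⟩`, `ev γ f = f γ`).  For a subgroup `H` and a 2-cochain `c` of `H`
with values in `Z`, the sum of the local invariants at the places above `ℓ` is written in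
TRANSFER style
  `unrSum θ E H c = ∑_{ξ ∈ Γ/H} θ ( ev_{t(dξ)} (∑_{k ∈ H} c (h_ξ, k)) / |H| )`,
`t` a section of `Γ → Γ/H`, `h_ξ = t(dξ)⁻¹ d t(ξ) ∈ H`, `θ : ℚ →+ T`, `θ 1 = 0`.
No double cosets, no powers of Frobenius.
-/
import Mathlib
import Fermat.Agent.S55.GlobalInv91.Carry
import Fermat.Agent.S55.CycloRecip37.DescendK

set_option autoImplicit false
set_option linter.unusedSectionVars false

namespace Fermat.Agent.S55.IdeleCoh54.UnrSum

open groupCohomology Fermat.Agent.S55.GlobalInv91 Fermat.Agent.S55.CycloRecip37.DescendK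

/-! ## Point cocycles and the transfer sum -/

section Transfer

variable {Γ : Type*} [Group Γ] (d : Γ) {A : Type*} [AddCommGroup A]

/-- A "point cocycle" of the subgroup `H`: `u (a b) γ = u b (γ a) + u a γ`, left `d`-invariant in
the point. -/
structure IsPtCocycle (H : Subgroup Γ) (u : H → Γ → A) : Prop where
  mul : ∀ (a b : H) (γ : Γ), u (a * b) γ = u b (γ * a) + u a γ
  left : ∀ (a : H) (γ : Γ), u a (d * γ) = u a γ

namespace IsPtCocycle

variable {d} {H : Subgroup Γ} {u : H → Γ → A}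

lemma one (hu : IsPtCocycle d H u) (γ : Γ) : u 1 γ = 0 := by
  have := hu.mul 1 1 γ
  simp only [mul_one, OneMemClass.coe_one] at this
  exact left_eq_add.mp this

lemma inv (hu : IsPtCocycle d H u) (a : H) (γ : Γ) : u a⁻¹ (γ * a) = - u a γ := by
  have := hu.mul a a⁻¹ γ
  rw [mul_inv_cancel, hu.one] at this
  exact eq_neg_of_add_eq_zero_left this.symm

/-- the change-of-section formula. -/
lemma conj_formula (hu : IsPtCocycle d H u) (k' h k : H) (y : Γ) :
    u (k'⁻¹ * (h * k)) (y * k') = u h y + u k (y * h) - u k' y := by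
  rw [hu.mul k'⁻¹ (h * k) (y * k'), hu.inv k' y, hu.mul h k]
  have : y * (k' : Γ) * ((k'⁻¹ : H) : Γ) = y := by simp
  rw [this]
  abel

lemma add {v : H → Γ → A} (hu : IsPtCocycle d H u) (hv : IsPtCocycle d H v) :
    IsPtCocycle d H (fun a γ => u a γ + v a γ) where
  mul a b γ := by rw [hu.mul, hv.mul]; abel
  left a γ := by rw [hu.left, hv.left]

lemma sub {v : H → Γ → A} (hu : IsPtCocycle d H u) (hv : IsPtCocycle d H v) :
    IsPtCocycle d H (fun a γ => u a γ - v a γ) where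
  mul a b γ := by rw [hu.mul, hv.mul]; abel
  left a γ := by rw [hu.left, hv.left]

lemma comp {B : Type*} [AddCommGroup B] (hu : IsPtCocycle d H u) (f : A →+ B) :
    IsPtCocycle d H (fun a γ => f (u a γ)) where
  mul a b γ := by rw [hu.mul, map_add]
  left a γ := by rw [hu.left]

lemma restrict (hu : IsPtCocycle d H u) {H' : Subgroup Γ} (h : H' ≤ H) :
    IsPtCocycle d H' (fun a γ => u (Subgroup.inclusion h a) γ) where
  mul a b γ := by rw [map_mul, hu.mul]; rfl
  left a γ := hu.left _ γ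

end IsPtCocycle

/-- the transfer element `h_ξ = t(dξ)⁻¹ d t(ξ) ∈ H` of a section `t` of `Γ → Γ ⧸ H`. -/
def trElt (H : Subgroup Γ) (t : Γ ⧸ H → Γ) (ht : ∀ ξ, (QuotientGroup.mk (t ξ) : Γ ⧸ H) = ξ)
    (ξ : Γ ⧸ H) : H :=
  ⟨(t (d • ξ))⁻¹ * (d * t ξ), by
    rw [← QuotientGroup.eq, ht]
    conv_lhs => rw [← ht ξ]
    rfl⟩

@[simp] lemma coe_trElt (H : Subgroup Γ) (t : Γ ⧸ H → Γ)
    (ht : ∀ ξ, (QuotientGroup.mk (t ξ) : Γ ⧸ H) = ξ) (ξ : Γ ⧸ H) :
    (trElt d H t ht ξ : Γ) = (t (d • ξ))⁻¹ * (d * t ξ) := rfl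

open Classical in
/-- the transfer sum of `u` along the section `t`. -/
noncomputable def trSum [Fintype Γ] (H : Subgroup Γ) (u : H → Γ → A) (t : Γ ⧸ H → Γ)
    (ht : ∀ ξ, (QuotientGroup.mk (t ξ) : Γ ⧸ H) = ξ) : A :=
  ∑ ξ : Γ ⧸ H, u (trElt d H t ht ξ) (t (d • ξ))

end Transfer

section Master

variable {Γ : Type*} [Group Γ] [Fintype Γ] (d : Γ) {A : Type*} [AddCommGroup A]

open Classical in
/-- sums over `Γ ⧸ H'` of functions factoring through `Γ ⧸ H`. -/
lemma sum_quotientMapOfLE {H' H : Subgroup Γ} (h : H' ≤ H) (F : Γ ⧸ H → A) :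
    ∑ ξ' : Γ ⧸ H', F (Subgroup.quotientMapOfLE h ξ') = H'.relIndex H • ∑ ξ : Γ ⧸ H, F ξ := by
  rw [← Fintype.sum_equiv (Subgroup.quotientEquivProdOfLE h).symm
    (fun x : (Γ ⧸ H) × H ⧸ H'.subgroupOf H => F x.1)
    (fun ξ' => F (Subgroup.quotientMapOfLE h ξ'))
    (fun x => by
      have : Subgroup.quotientMapOfLE h ((Subgroup.quotientEquivProdOfLE h).symm x)
          = ((Subgroup.quotientEquivProdOfLE h) ((Subgroup.quotientEquivProdOfLE h).symm x)).1 :=
        rfl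
      rw [this, Equiv.apply_symm_apply])]
  rw [Fintype.sum_prod_type]
  simp only [Finset.sum_const, Finset.card_univ, ← Finset.smul_sum]
  congr 1
  rw [Subgroup.relIndex, Subgroup.index, Nat.card_eq_fintype_card]

open Classical in
/-- **Master lemma**: the transfer sum of a point cocycle does not depend on the section, and
restriction to a subgroup multiplies it by the index. -/
theorem trSum_res {H' H : Subgroup Γ} (h : H' ≤ H) {u : H → Γ → A} (hu : IsPtCocycle d H u)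
    (t' : Γ ⧸ H' → Γ) (ht' : ∀ ξ, (QuotientGroup.mk (t' ξ) : Γ ⧸ H') = ξ)
    (t : Γ ⧸ H → Γ) (ht : ∀ ξ, (QuotientGroup.mk (t ξ) : Γ ⧸ H) = ξ) :
    trSum d H' (fun a γ => u (Subgroup.inclusion h a) γ) t' ht' =
      H'.relIndex H • trSum d H u t ht := by
  set π := Subgroup.quotientMapOfLE h with hπ
  have hπd : ∀ ξ' : Γ ⧸ H', π (d • ξ') = d • π ξ' := by
    intro ξ'
    induction ξ' using QuotientGroup.induction_on with
    | H g => rfl
  have hπt : ∀ ξ' : Γ ⧸ H', (QuotientGroup.mk (t' ξ') : Γ ⧸ H) = π ξ' := by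
    intro ξ'
    conv_rhs => rw [← ht' ξ']
    rfl
  have hr : ∀ ξ' : Γ ⧸ H', (t (π ξ'))⁻¹ * t' ξ' ∈ H := by
    intro ξ'
    rw [← QuotientGroup.eq, ht, hπt]
  let r : Γ ⧸ H' → H := fun ξ' => ⟨(t (π ξ'))⁻¹ * t' ξ', hr ξ'⟩
  have hpt : ∀ ξ' : Γ ⧸ H', t' ξ' = t (π ξ') * (r ξ' : Γ) := by
    intro ξ'; simp [r]
  have hkey : ∀ ξ' : Γ ⧸ H', Subgroup.inclusion h (trElt d H' t' ht' ξ') =
      (r (d • ξ'))⁻¹ * (trElt d H t ht (π ξ') * r ξ') := by
    intro ξ'
    apply Subtype.ext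
    simp only [Subgroup.coe_inclusion, coe_trElt, Subgroup.coe_mul, InvMemClass.coe_inv, r, hπd]
    group
  let f : Γ ⧸ H' → A := fun ξ' => u (r ξ') (t (π ξ'))
  have hterm : ∀ ξ' : Γ ⧸ H', u (Subgroup.inclusion h (trElt d H' t' ht' ξ')) (t' (d • ξ')) =
      u (trElt d H t ht (π ξ')) (t (d • π ξ')) + f ξ' - f (d • ξ') := by
    intro ξ'
    rw [hkey, hpt (d • ξ'), hu.conj_formula]
    have h1 : t (π (d • ξ')) * (trElt d H t ht (π ξ') : Γ) = d * t (π ξ') := by
      rw [hπd, coe_trElt]; group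
    rw [h1, hu.left, hπd]
    simp only [f, hπd]
  have hperm : ∑ ξ' : Γ ⧸ H', f (d • ξ') = ∑ ξ' : Γ ⧸ H', f ξ' :=
    Equiv.sum_comp (MulAction.toPerm d) f
  unfold trSum
  rw [Finset.sum_congr rfl (fun ξ' _ => hterm ξ'), Finset.sum_sub_distrib, Finset.sum_add_distrib,
    hperm, add_sub_cancel_right]
  exact sum_quotientMapOfLE h (fun ξ => u (trElt d H t ht ξ) (t (d • ξ)))

open Classical in
/-- independence of the section. -/
theorem trSum_eq_of_section {H : Subgroup Γ} {u : H → Γ → A} (hu : IsPtCocycle d H u)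
    (t' : Γ ⧸ H → Γ) (ht' : ∀ ξ, (QuotientGroup.mk (t' ξ) : Γ ⧸ H) = ξ)
    (t : Γ ⧸ H → Γ) (ht : ∀ ξ, (QuotientGroup.mk (t ξ) : Γ ⧸ H) = ξ) :
    trSum d H u t' ht' = trSum d H u t ht := by
  have := trSum_res d (le_refl H) hu t' ht' t ht
  rw [Subgroup.relIndex_self, one_smul] at this
  exact this

open Classical in
lemma trSum_add {H : Subgroup Γ} (u v : H → Γ → A) (t : Γ ⧸ H → Γ)
    (ht : ∀ ξ, (QuotientGroup.mk (t ξ) : Γ ⧸ H) = ξ) :
    trSum d H (fun a γ => u a γ + v a γ) t ht = trSum d H u t ht + trSum d H v t ht := by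
  unfold trSum
  rw [← Finset.sum_add_distrib]

open Classical in
lemma trSum_sub {H : Subgroup Γ} (u v : H → Γ → A) (t : Γ ⧸ H → Γ)
    (ht : ∀ ξ, (QuotientGroup.mk (t ξ) : Γ ⧸ H) = ξ) :
    trSum d H (fun a γ => u a γ - v a γ) t ht = trSum d H u t ht - trSum d H v t ht := by
  unfold trSum
  rw [← Finset.sum_sub_distrib]

open Classical in
lemma trSum_comp {B : Type*} [AddCommGroup B] {H : Subgroup Γ} (u : H → Γ → A) (f : A →+ B)
    (t : Γ ⧸ H → Γ) (ht : ∀ ξ, (QuotientGroup.mk (t ξ) : Γ ⧸ H) = ξ) :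
    trSum d H (fun a γ => f (u a γ)) t ht = f (trSum d H u t ht) := by
  unfold trSum
  rw [map_sum]

open Classical in
/-- the transfer sum of a "point coboundary" vanishes. -/
theorem trSum_cobound {H : Subgroup Γ} (β : Γ → A) (hβ : ∀ γ, β (d * γ) = β γ)
    (u : H → Γ → A) (hu : ∀ (a : H) (γ : Γ), u a γ = β (γ * a) - β γ)
    (t : Γ ⧸ H → Γ) (ht : ∀ ξ, (QuotientGroup.mk (t ξ) : Γ ⧸ H) = ξ) :
    trSum d H u t ht = 0 := by
  unfold trSum
  have hterm : ∀ ξ : Γ ⧸ H, u (trElt d H t ht ξ) (t (d • ξ)) = β (t ξ) - β (t (d • ξ)) := by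
    intro ξ
    rw [hu, coe_trElt]
    have : t (d • ξ) * ((t (d • ξ))⁻¹ * (d * t ξ)) = d * t ξ := by group
    rw [this, hβ]
  have hperm : ∑ ξ : Γ ⧸ H, β (t (d • ξ)) = ∑ ξ : Γ ⧸ H, β (t ξ) :=
    Equiv.sum_comp (MulAction.toPerm d) (fun ξ => β (t ξ))
  rw [Finset.sum_congr rfl (fun ξ _ => hterm ξ), Finset.sum_sub_distrib, hperm, sub_self]

/-- a point cocycle with values in a uniquely divisible group is a point coboundary. -/
lemma IsPtCocycle.exists_cobound {V : Type*} [AddCommGroup V] [Module ℚ V] {H : Subgroup Γ}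
    {w : H → Γ → V} (hw : IsPtCocycle d H w) :
    ∃ β : Γ → V, (∀ γ, β (d * γ) = β γ) ∧ ∀ (a : H) (γ : Γ), w a γ = β (γ * a) - β γ := by
  classical
  refine ⟨fun γ => - ((Fintype.card H : ℚ)⁻¹ • ∑ k : H, w k γ), fun γ => ?_, fun a γ => ?_⟩
  · simp only [hw.left]
  · have hsum : ∑ k : H, w (a * k) γ = ∑ k : H, w k (γ * a) + Fintype.card H • w a γ := by
      rw [Finset.sum_congr rfl (fun k _ => hw.mul a k γ), Finset.sum_add_distrib,
        Finset.sum_const, Finset.card_univ]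
    have hperm : ∑ k : H, w (a * k) γ = ∑ k : H, w k γ :=
      Equiv.sum_comp (Equiv.mulLeft a) (fun k => w k γ)
    rw [hperm] at hsum
    have hc : (Fintype.card H : ℚ) ≠ 0 := Nat.cast_ne_zero.mpr Fintype.card_ne_zero
    beta_reduce
    rw [hsum, smul_add, ← Nat.cast_smul_eq_nsmul ℚ, smul_smul, inv_mul_cancel₀ hc, one_smul]
    abel

end Master

section Conj

variable {Γ : Type*} [Group Γ] [Fintype Γ] (d : Γ) {A : Type*} [AddCommGroup A]

/-- `σ⁻¹ a σ` as an element of the normal subgroup `N`. -/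
def conjElt (N : Subgroup Γ) [hN : N.Normal] (σ : Γ) (a : N) : N :=
  ⟨σ⁻¹ * a * σ, by have := hN.conj_mem a a.2 σ⁻¹; rwa [inv_inv] at this⟩

@[simp] lemma coe_conjElt (N : Subgroup Γ) [N.Normal] (σ : Γ) (a : N) :
    (conjElt N σ a : Γ) = σ⁻¹ * a * σ := rfl

lemma conjElt_mul (N : Subgroup Γ) [N.Normal] (σ : Γ) (a b : N) :
    conjElt N σ (a * b) = conjElt N σ a * conjElt N σ b := by
  apply Subtype.ext
  simp only [coe_conjElt, Subgroup.coe_mul]
  group

/-- the conjugate of a point cocycle. -/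
lemma IsPtCocycle.conj {N : Subgroup Γ} [N.Normal] {u : N → Γ → A} (hu : IsPtCocycle d N u)
    (σ : Γ) : IsPtCocycle d N (fun a γ => u (conjElt N σ a) (γ * σ)) where
  mul a b γ := by
    rw [conjElt_mul, hu.mul]
    have : γ * σ * (conjElt N σ a : Γ) = γ * a * σ := by simp only [coe_conjElt]; group
    rw [this]
  left a γ := by rw [mul_assoc, hu.left]

open Classical in
/-- **conjugation invariance** of the transfer sum on a normal subgroup. -/
theorem trSum_conj (N : Subgroup Γ) [N.Normal] (σ : Γ) {u : N → Γ → A} (hu : IsPtCocycle d N u)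
    (t : Γ ⧸ N → Γ) (ht : ∀ ξ, (QuotientGroup.mk (t ξ) : Γ ⧸ N) = ξ) :
    trSum d N (fun a γ => u (conjElt N σ a) (γ * σ)) t ht = trSum d N u t ht := by
  set σb : Γ ⧸ N := QuotientGroup.mk σ with hσb
  let tσ : Γ ⧸ N → Γ := fun η => t (η * σb⁻¹) * σ
  have htσ : ∀ η, (QuotientGroup.mk (tσ η) : Γ ⧸ N) = η := by
    intro η
    simp only [tσ]
    rw [QuotientGroup.mk_mul, ht, ← hσb, inv_mul_cancel_right]
  have hsmul : ∀ ξ : Γ ⧸ N, d • (ξ * σb) = (d • ξ) * σb := by
    intro ξ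
    induction ξ using QuotientGroup.induction_on with
    | H g =>
      rw [hσb, ← QuotientGroup.mk_mul]
      change (QuotientGroup.mk (d * (g * σ)) : Γ ⧸ N) = QuotientGroup.mk (d * g) * QuotientGroup.mk σ
      rw [← QuotientGroup.mk_mul, mul_assoc]
  have h1 : ∀ ξ : Γ ⧸ N, tσ (ξ * σb) = t ξ * σ := by
    intro ξ; simp only [tσ, mul_inv_cancel_right]
  have hterm : ∀ ξ : Γ ⧸ N, u (trElt d N tσ htσ (ξ * σb)) (tσ (d • (ξ * σb))) =
      u (conjElt N σ (trElt d N t ht ξ)) (t (d • ξ) * σ) := by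
    intro ξ
    have e : trElt d N tσ htσ (ξ * σb) = conjElt N σ (trElt d N t ht ξ) := by
      apply Subtype.ext
      simp only [coe_trElt, coe_conjElt, hsmul, h1]
      group
    rw [e, hsmul, h1]
  rw [← trSum_eq_of_section d hu tσ htσ t ht]
  unfold trSum
  rw [← Equiv.sum_comp (Equiv.mulRight σb)
    (fun η => u (trElt d N tσ htσ η) (tσ (d • η)))]
  exact Finset.sum_congr rfl (fun ξ _ => (hterm ξ).symm)

end Conj

/-! ## Evaluation data and rational trivialisations -/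

section Cochain

variable {Γ : Type} [Group Γ] (Z : Rep ℤ Γ) (d : Γ)

/-- "point evaluations" on `Z`: `ev γ (g • z) = ev (γ g) z`, `ev (d γ) = ev γ`. -/
structure EvalData where
  /-- evaluation at the point `γ`. -/
  ev : Γ → Z →+ ℤ
  ev_rho : ∀ (γ g : Γ) (z : Z), ev γ (Z.ρ g z) = ev (γ * g) z
  ev_d : ∀ (γ : Γ) (z : Z), ev (d * γ) z = ev γ z

variable {Z d} (E : EvalData Z d)

/-- `g` is a rational trivialisation of the 2-cochain `c` of `H` (after evaluation). -/
def IsTriv (H : Subgroup Γ) (c : H × H → Z) (g : H → Γ → ℚ) : Prop :=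
  (∀ (a b : H) (γ : Γ), (E.ev γ (c (a, b)) : ℚ) = g b (γ * a) - g (a * b) γ + g a γ) ∧
    ∀ (a : H) (γ : Γ), g a (d * γ) = g a γ

variable {T : Type*} [AddCommGroup T] (θ : ℚ →+ T)

lemma theta_intCast (hθ : θ 1 = 0) (m : ℤ) : θ (m : ℚ) = 0 := by
  have : (m : ℚ) = m • (1 : ℚ) := by simp
  rw [this, map_zsmul, hθ, smul_zero]

lemma theta_natCast (hθ : θ 1 = 0) (m : ℕ) : θ (m : ℚ) = 0 := by
  have := theta_intCast θ hθ (m : ℤ)
  simpa using this

/-- a rational trivialisation gives a point cocycle with values in `T`. -/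
lemma IsTriv.ptCocycle (hθ : θ 1 = 0) {H : Subgroup Γ} {c : H × H → Z} {g : H → Γ → ℚ}
    (hg : IsTriv E H c g) : IsPtCocycle d H (fun a γ => θ (g a γ)) where
  mul a b γ := by
    have h := hg.1 a b γ
    have : g (a * b) γ = g b (γ * a) + g a γ - (E.ev γ (c (a, b)) : ℚ) := by rw [h]; ring
    rw [this, map_sub, map_add, theta_intCast θ hθ, sub_zero]
  left a γ := by rw [hg.2]

/-- the difference of two trivialisations of the same cochain is a rational point cocycle. -/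
lemma IsTriv.sub_ptCocycle {H : Subgroup Γ} {c : H × H → Z} {g g' : H → Γ → ℚ}
    (hg : IsTriv E H c g) (hg' : IsTriv E H c g') :
    IsPtCocycle d H (fun a γ => g a γ - g' a γ) where
  mul a b γ := by
    have h := hg.1 a b γ
    have h' := hg'.1 a b γ
    rw [h] at h'
    linarith
  left a γ := by rw [hg.2, hg'.2]

variable [Fintype Γ]

open Classical in
/-- the transfer sums of two trivialisations of the same cochain agree. -/
theorem trSum_eq_of_isTriv (hθ : θ 1 = 0) {H : Subgroup Γ} {c : H × H → Z} {g g' : H → Γ → ℚ}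
    (hg : IsTriv E H c g) (hg' : IsTriv E H c g')
    (t : Γ ⧸ H → Γ) (ht : ∀ ξ, (QuotientGroup.mk (t ξ) : Γ ⧸ H) = ξ)
    (t' : Γ ⧸ H → Γ) (ht' : ∀ ξ, (QuotientGroup.mk (t' ξ) : Γ ⧸ H) = ξ) :
    trSum d H (fun a γ => θ (g a γ)) t ht = trSum d H (fun a γ => θ (g' a γ)) t' ht' := by
  rw [trSum_eq_of_section d (hg'.ptCocycle E θ hθ) t' ht' t ht]
  obtain ⟨β, hβ, hw⟩ := (hg.sub_ptCocycle E hg').exists_cobound d
  have h0 : trSum d H (fun a γ => θ (g a γ) - θ (g' a γ)) t ht = 0 := by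
    refine trSum_cobound d (fun γ => θ (β γ)) (fun γ => by rw [hβ]) _ (fun a γ => ?_) t ht
    rw [← map_sub, ← map_sub, hw]
  rw [trSum_sub] at h0
  exact sub_eq_zero.mp h0

open Classical in
/-- the canonical rational trivialisation `g a γ = ev γ (∑_k c (a, k)) / |H|`. -/
noncomputable def avgTriv (H : Subgroup Γ) (c : H × H → Z) : H → Γ → ℚ :=
  fun a γ => (E.ev γ (∑ k : H, c (a, k)) : ℚ) / (Nat.card H : ℚ)

open Classical in
lemma isTriv_avgTriv {H : Subgroup Γ} {c : H × H → Z} (hc : c ∈ cocycles₂ (resH Z H)) :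
    IsTriv E H c (avgTriv E H c) := by
  have hcard : (Nat.card H : ℚ) ≠ 0 := Nat.cast_ne_zero.mpr Nat.card_pos.ne'
  refine ⟨fun a b γ => ?_, fun a γ => ?_⟩
  · rw [mem_cocycles₂_iff] at hc
    have hsum : ∑ k : H, c (a * b, k) + Nat.card H • c (a, b) =
        Z.ρ a (∑ k : H, c (b, k)) + ∑ k : H, c (a, k) := by
      have h1 : ∑ k : H, c (a, b * k) = ∑ k : H, c (a, k) :=
        Equiv.sum_comp (Equiv.mulLeft b) (fun k => c (a, k))
      rw [map_sum, ← h1, ← Finset.sum_add_distrib, Nat.card_eq_fintype_card, ← Finset.card_univ,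
        ← Finset.sum_const, ← Finset.sum_add_distrib]
      exact Finset.sum_congr rfl (fun k _ => hc a b k)
    have := congrArg (fun z => (E.ev γ z : ℚ)) hsum
    simp only [map_add, map_nsmul, E.ev_rho, Int.cast_add, nsmul_eq_mul, Int.cast_mul,
      Int.cast_natCast] at this
    simp only [avgTriv]
    field_simp
    linarith
  · simp only [avgTriv, E.ev_d]

open Classical in
/-- **the unramified invariant sum** of a 2-cochain of `H` with values in `Z`. -/
noncomputable def unrSum (H : Subgroup Γ) (c : H × H → Z) : T :=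
  trSum d H (fun a γ => θ (avgTriv E H c a γ)) Quotient.out QuotientGroup.out_eq'

open Classical in
/-- `unrSum` computed with any rational trivialisation and any section. -/
theorem unrSum_eq_of_triv (hθ : θ 1 = 0) {H : Subgroup Γ} {c : H × H → Z}
    (hc : c ∈ cocycles₂ (resH Z H)) {g : H → Γ → ℚ} (hg : IsTriv E H c g)
    (t : Γ ⧸ H → Γ) (ht : ∀ ξ, (QuotientGroup.mk (t ξ) : Γ ⧸ H) = ξ) :
    unrSum E θ H c = trSum d H (fun a γ => θ (g a γ)) t ht :=
  trSum_eq_of_isTriv E θ hθ (isTriv_avgTriv E hc) hg _ _ t ht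

open Classical in
lemma avgTriv_add (H : Subgroup Γ) (c c' : H × H → Z) (a : H) (γ : Γ) :
    avgTriv E H (c + c') a γ = avgTriv E H c a γ + avgTriv E H c' a γ := by
  simp only [avgTriv, Pi.add_apply, Finset.sum_add_distrib, map_add, Int.cast_add, add_div]

open Classical in
/-- additivity (on all cochains). -/
theorem unrSum_add (H : Subgroup Γ) (c c' : H × H → Z) :
    unrSum E θ H (c + c') = unrSum E θ H c + unrSum E θ H c' := by
  unfold unrSum
  rw [← trSum_add]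
  congr 1
  funext a γ
  rw [avgTriv_add, map_add]

open Classical in
/-- coboundaries have invariant sum `0`. -/
theorem unrSum_cob (hθ : θ 1 = 0) (H : Subgroup Γ) (c : H × H → Z)
    (hc : IsCob₂ (resH Z H) c) : unrSum E θ H c = 0 := by
  obtain ⟨x, hx⟩ := hc
  have hcard : (Nat.card H : ℚ) ≠ 0 := Nat.cast_ne_zero.mpr Nat.card_pos.ne'
  set sx : Z := ∑ k : H, x k with hsx
  refine trSum_cobound d (fun γ => θ ((E.ev γ sx : ℚ) / (Nat.card H : ℚ)))
    (fun γ => by rw [E.ev_d]) _ (fun a γ => ?_) _ _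
  have hsum : ∑ k : H, c (a, k) = Z.ρ a sx - sx + Nat.card H • x a := by
    have h1 : ∑ k : H, x (a * k) = ∑ k : H, x k :=
      Equiv.sum_comp (Equiv.mulLeft a) (fun k => x k)
    rw [hsx, map_sum, ← h1, ← Finset.sum_sub_distrib, Nat.card_eq_fintype_card, ← Finset.card_univ,
      ← Finset.sum_const, ← Finset.sum_add_distrib]
    exact Finset.sum_congr rfl (fun k _ => (hx a k).symm)
  have : avgTriv E H c a γ = (E.ev (γ * a) sx : ℚ) / (Nat.card H : ℚ)
      - (E.ev γ sx : ℚ) / (Nat.card H : ℚ) + (E.ev γ (x a) : ℚ) := by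
    simp only [avgTriv]
    rw [hsum]
    simp only [map_add, map_sub, map_nsmul, E.ev_rho, Int.cast_add, Int.cast_sub, nsmul_eq_mul,
      Int.cast_mul, Int.cast_natCast]
    field_simp
  rw [this, map_add, map_sub, theta_intCast θ hθ, add_zero]

/-- the restriction of a 2-cocycle is a 2-cocycle. -/
lemma resCochain_mem {H' H : Subgroup Γ} (h : H' ≤ H) {c : H × H → Z}
    (hc : c ∈ cocycles₂ (resH Z H)) : resCochain Z h c ∈ cocycles₂ (resH Z H') := by
  rw [mem_cocycles₂_iff] at hc ⊢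
  intro a b j
  exact hc (Subgroup.inclusion h a) (Subgroup.inclusion h b) (Subgroup.inclusion h j)

open Classical in
/-- **restriction**: `unrSum H' (res c) = [H : H'] • unrSum H c`. -/
theorem unrSum_res (hθ : θ 1 = 0) {H' H : Subgroup Γ} (h : H' ≤ H) {c : H × H → Z}
    (hc : c ∈ cocycles₂ (resH Z H)) :
    unrSum E θ H' (resCochain Z h c) = H'.relIndex H • unrSum E θ H c := by
  have hg := isTriv_avgTriv E hc
  have hg' : IsTriv E H' (resCochain Z h c)
      (fun a γ => avgTriv E H c (Subgroup.inclusion h a) γ) :=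
    ⟨fun a b γ => hg.1 (Subgroup.inclusion h a) (Subgroup.inclusion h b) γ,
      fun a γ => hg.2 _ γ⟩
  rw [unrSum_eq_of_triv E θ hθ (resCochain_mem h hc) hg' Quotient.out QuotientGroup.out_eq']
  exact trSum_res d h (hg.ptCocycle E θ hθ) _ _ _ _

/-- conjugation by `σ` as a permutation of the normal subgroup `N`. -/
def conjEquiv (N : Subgroup Γ) [N.Normal] (σ : Γ) : N ≃ N where
  toFun := conjElt N σ
  invFun := conjElt N σ⁻¹
  left_inv a := by apply Subtype.ext; simp only [coe_conjElt]; group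
  right_inv a := by apply Subtype.ext; simp only [coe_conjElt]; group

open Classical in
lemma avgTriv_conjCochain (N : Subgroup Γ) [N.Normal] (σ : Γ) (c : N × N → Z) (a : N) (γ : Γ) :
    avgTriv E N (conjCochain Z N σ c) a γ = avgTriv E N c (conjElt N σ a) (γ * σ) := by
  simp only [avgTriv]
  congr 2
  have h1 : ∑ k : N, conjCochain Z N σ c (a, k) =
      Z.ρ σ (∑ k : N, c (conjElt N σ a, conjElt N σ k)) := by
    rw [map_sum]; rfl
  have h2 : ∑ k : N, c (conjElt N σ a, conjElt N σ k) = ∑ k : N, c (conjElt N σ a, k) :=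
    Equiv.sum_comp (conjEquiv N σ) (fun k => c (conjElt N σ a, k))
  rw [h1, h2, E.ev_rho]

open Classical in
/-- **conjugation invariance** on normal subgroups. -/
theorem unrSum_conj (hθ : θ 1 = 0) (N : Subgroup Γ) [N.Normal] (σ : Γ) {c : N × N → Z}
    (hc : c ∈ cocycles₂ (resH Z N)) :
    unrSum E θ N (conjCochain Z N σ c) = unrSum E θ N c := by
  unfold unrSum
  have : (fun (a : N) (γ : Γ) => θ (avgTriv E N (conjCochain Z N σ c) a γ)) =
      fun a γ => (fun (a : N) (γ : Γ) => θ (avgTriv E N c a γ)) (conjElt N σ a) (γ * σ) := by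
    funext a γ
    rw [avgTriv_conjCochain]
  rw [this]
  exact trSum_conj d N σ ((isTriv_avgTriv E hc).ptCocycle E θ hθ) _ _

/-- **The unramified sum system** on `Z`, in the shape consumed by
`CycloRecip37.DescendK.index_nsmul_eq_zero` / `S_carry_eq_zero`. -/
noncomputable def unrSystem (hθ : θ 1 = 0) : SumSystem Z T where
  S := fun H c => unrSum E θ H c
  add := fun H f g _ _ => unrSum_add E θ H f g
  cob := fun H f hf => unrSum_cob E θ hθ H f hf
  res := fun _ _ h _ hf => unrSum_res E θ hθ h hf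
  conj := fun N _ σ _ hf => unrSum_conj E θ hθ N σ hf

/-! ## The carry formula -/

section CarryFormula

variable {n : ℕ} [NeZero n]

/-- `c ↦ θ (c.val / n)`, the embedding `ℤ/n = (1/n)ℤ/ℤ → T`. -/
noncomputable def fracHom (hθ : θ 1 = 0) (n : ℕ) [NeZero n] : ZMod n →+ T where
  toFun c := θ ((c.val : ℚ) / n)
  map_zero' := by simp
  map_add' x y := by
    have hn : (n : ℚ) ≠ 0 := Nat.cast_ne_zero.mpr (NeZero.ne n)
    have h := val_add_val n x y
    have : ((x + y).val : ℚ) / n = (x.val : ℚ) / n + (y.val : ℚ) / n - (carryNat n x y : ℚ) := by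
      have h' : ((x.val : ℚ) + (y.val : ℚ)) = ((x + y).val : ℚ) + n * (carryNat n x y : ℚ) := by
        exact_mod_cast h
      field_simp
      linarith
    rw [this, map_sub, map_add, theta_natCast θ hθ, sub_zero]

lemma fracHom_apply (hθ : θ 1 = 0) (c : ZMod n) : fracHom θ hθ n c = θ ((c.val : ℚ) / n) := rfl

/-- the rational trivialisation of a carry cochain. -/
lemma isTriv_carryH (χ : Γ →* Multiplicative (ZMod n)) (H : Subgroup Γ) (a : Z)
    (ha : ∀ h ∈ H, Z.ρ h a = a) :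
    IsTriv E H (carryH Z χ H a)
      (fun x γ => ((chiVal χ (x : Γ)).val : ℚ) / n * (E.ev γ a : ℚ)) := by
  have hn : (n : ℚ) ≠ 0 := Nat.cast_ne_zero.mpr (NeZero.ne n)
  refine ⟨fun x y γ => ?_, fun x γ => by beta_reduce; rw [E.ev_d]⟩
  beta_reduce
  have h1 : E.ev (γ * x) a = E.ev γ a := by rw [← E.ev_rho, ha x x.2]
  have h2 : carryH Z χ H a (x, y) =
      carryNat n (chiVal χ (x : Γ)) (chiVal χ (y : Γ)) • a := rfl
  have h3 := val_add_val n (chiVal χ (x : Γ)) (chiVal χ (y : Γ))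
  have h3' : ((chiVal χ (x : Γ)).val : ℚ) + ((chiVal χ (y : Γ)).val : ℚ) =
      ((chiVal χ (x : Γ) + chiVal χ (y : Γ)).val : ℚ) +
        n * (carryNat n (chiVal χ (x : Γ)) (chiVal χ (y : Γ)) : ℚ) := by exact_mod_cast h3
  rw [h2, map_nsmul, h1, Subgroup.coe_mul, chiVal_mul]
  simp only [nsmul_eq_mul, Int.cast_mul, Int.cast_natCast]
  field_simp
  linear_combination (-(E.ev γ a : ℚ)) * h3'

open Classical in
/-- **The unramified formula**: for an `H`-invariant `a`,
`unrSum H (δχ|_H ∪ a) = (∑_{ξ ∈ Γ/H} ev_ξ a) • χ(d)/n`. -/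
theorem unrSum_carryH (hθ : θ 1 = 0) (χ : Γ →* Multiplicative (ZMod n)) (H : Subgroup Γ) (a : Z)
    (ha : ∀ h ∈ H, Z.ρ h a = a) :
    unrSum E θ H (carryH Z χ H a) =
      (∑ ξ : Γ ⧸ H, E.ev (Quotient.out ξ) a) • fracHom θ hθ n (chiVal χ d) := by
  rw [unrSum_eq_of_triv E θ hθ (carryH_mem χ H a ha) (isTriv_carryH E χ H a ha)
    Quotient.out QuotientGroup.out_eq']
  unfold trSum
  set t : Γ ⧸ H → Γ := Quotient.out with ht
  have hm : ∀ ξ : Γ ⧸ H, E.ev (t (d • ξ)) a = E.ev (t ξ) a := by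
    intro ξ
    have h1 : t (d • ξ) * (trElt d H t QuotientGroup.out_eq' ξ : Γ) = d * t ξ := by
      rw [coe_trElt]; group
    have h2 : E.ev (d * t ξ) a = E.ev (t (d • ξ)) a := by
      rw [← h1, ← E.ev_rho, ha _ (trElt d H t QuotientGroup.out_eq' ξ).2]
    rw [← h2, E.ev_d]
  set F := fracHom θ hθ n with hF
  let f : Γ ⧸ H → T := fun ξ => E.ev (t ξ) a • F (chiVal χ (t ξ))
  have hterm : ∀ ξ : Γ ⧸ H,
      θ (((chiVal χ (trElt d H t QuotientGroup.out_eq' ξ : Γ)).val : ℚ) / n *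
        (E.ev (t (d • ξ)) a : ℚ)) = E.ev (t ξ) a • F (chiVal χ d) + f ξ - f (d • ξ) := by
    intro ξ
    have e1 : θ (((chiVal χ (trElt d H t QuotientGroup.out_eq' ξ : Γ)).val : ℚ) / n *
        (E.ev (t (d • ξ)) a : ℚ)) =
        E.ev (t (d • ξ)) a • F (chiVal χ (trElt d H t QuotientGroup.out_eq' ξ : Γ)) := by
      rw [hF, fracHom_apply, ← map_zsmul, zsmul_eq_mul, mul_comm]
    have e2 : chiVal χ (trElt d H t QuotientGroup.out_eq' ξ : Γ) =
        chiVal χ d + chiVal χ (t ξ) - chiVal χ (t (d • ξ)) := by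
      rw [coe_trElt]
      simp only [chiVal, map_mul, map_inv, toAdd_mul, toAdd_inv]
      ring
    rw [e1, e2, map_sub, map_add, smul_sub, smul_add, hm]
    simp only [f, hm]
  have hperm : ∑ ξ : Γ ⧸ H, f (d • ξ) = ∑ ξ : Γ ⧸ H, f ξ :=
    Equiv.sum_comp (MulAction.toPerm d) f
  rw [Finset.sum_congr rfl (fun ξ _ => hterm ξ), Finset.sum_sub_distrib, Finset.sum_add_distrib,
    hperm, add_sub_cancel_right, Finset.sum_smul]

open Classical in
/-- the base case `H = ⊤`: `unrSum ⊤ (δχ ∪ a) = ev₁(a) • χ(d)/n`  (`v_ℓ(a) · χ(Frob_ℓ) / n`). -/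
theorem unrSum_carryH_top (hθ : θ 1 = 0) (χ : Γ →* Multiplicative (ZMod n)) (a : Z)
    (ha : ∀ g : Γ, Z.ρ g a = a) :
    unrSum E θ ⊤ (carryH Z χ ⊤ a) = E.ev 1 a • fracHom θ hθ n (chiVal χ d) := by
  rw [unrSum_carryH E θ hθ χ ⊤ a (fun h _ => ha h)]
  congr 1
  have h1 : ∀ ξ : Γ ⧸ (⊤ : Subgroup Γ), E.ev (Quotient.out ξ) a = E.ev 1 a := by
    intro ξ
    have := E.ev_rho 1 (Quotient.out ξ) a
    rw [ha, one_mul] at this
    exact this.symm
  rw [Finset.sum_congr rfl (fun ξ _ => h1 ξ), Finset.sum_const, Finset.card_univ]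
  have : Fintype.card (Γ ⧸ (⊤ : Subgroup Γ)) = 1 := by
    rw [← Nat.card_eq_fintype_card, ← Subgroup.index_eq_card, Subgroup.index_top]
  rw [this, one_smul]

end CarryFormula

end Cochain

/-! ## The coinduced module `Coind_ψ ℤ` -/

section Coind

variable {Γ : Type} [Group Γ] {Γ' : Type*} [Group Γ'] (ψ : Γ' →* Γ)

/-- the ℤ-layer at one place: `Coind_ψ ℤ`. -/
noncomputable abbrev coindInt : Rep ℤ Γ := Rep.coind ψ (Rep.trivial ℤ Γ' ℤ)

/-- evaluation of a coinduced function at a point. -/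
def evalAt (γ : Γ) : coindInt ψ →+ ℤ where
  toFun f := f.1 γ
  map_zero' := rfl
  map_add' _ _ := rfl

@[simp] lemma evalAt_apply (γ : Γ) (f : coindInt ψ) : evalAt ψ γ f = f.1 γ := rfl

lemma coindInt_apply_mul (f : coindInt ψ) (τ : Γ') (γ : Γ) : f.1 (ψ τ * γ) = f.1 γ :=
  f.2 τ γ

/-- the evaluation data of `Coind_ψ ℤ` for any `d` in the range of `ψ`. -/
def coindEval (d : Γ) (hd : d ∈ ψ.range) : EvalData (coindInt ψ) d where
  ev := evalAt ψ
  ev_rho γ g z := rfl
  ev_d γ z := by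
    obtain ⟨τ, rfl⟩ := hd
    exact coindInt_apply_mul ψ z τ γ

@[simp] lemma coindEval_ev (d : Γ) (hd : d ∈ ψ.range) (γ : Γ) (f : coindInt ψ) :
    (coindEval ψ d hd).ev γ f = f.1 γ := rfl

end Coind


end Fermat.Agent.S55.IdeleCoh54.UnrSum
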