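/-
S55 / leaf 36b-IDELE-COH (helper54), file 3: the unramified invariant on the ℤ-layer as a
`CycloRecip37.GSys.Sys` (helper37's global-cochain systems: conjugation between ARBITRARY
conjugate subgroups), so that it can be combined (`Sys.finsum`, `Sys.comap`, `Sys.map`) with the
local systems at the places of `S`.
-/
import Mathlib
import Fermat.Agent.S55.IdeleCoh54.UnrSum
import Fermat.Agent.S55.CycloRecip37.GSys

set_option autoImplicit false
set_option linter.unusedSectionVars false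

namespace Fermat.Agent.S55.IdeleCoh54.UnrGSys

open groupCohomology Fermat.Agent.S55.GlobalInv91 Fermat.Agent.S55.CycloRecip37.DescendK
  Fermat.Agent.S55.CycloRecip37 Fermat.Agent.S55.IdeleCoh54.UnrSum

/-! ## Conjugation between conjugate subgroups -/

section ConjGen

variable {Γ : Type*} [Group Γ] (d : Γ) {A : Type*} [AddCommGroup A]

/-- `σ⁻¹ a σ ∈ H` for `a ∈ H' = σ H σ⁻¹`. -/
def conjEltG {H' H : Subgroup Γ} {σ : Γ} (hH : ∀ g, g ∈ H' ↔ σ⁻¹ * g * σ ∈ H) (a : H') : H :=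
  ⟨σ⁻¹ * a * σ, (hH a).1 a.2⟩

@[simp] lemma coe_conjEltG {H' H : Subgroup Γ} {σ : Γ} (hH : ∀ g, g ∈ H' ↔ σ⁻¹ * g * σ ∈ H)
    (a : H') : (conjEltG hH a : Γ) = σ⁻¹ * a * σ := rfl

lemma conjEltG_mul {H' H : Subgroup Γ} {σ : Γ} (hH : ∀ g, g ∈ H' ↔ σ⁻¹ * g * σ ∈ H)
    (a b : H') : conjEltG hH (a * b) = conjEltG hH a * conjEltG hH b := by
  apply Subtype.ext
  simp only [coe_conjEltG, Subgroup.coe_mul]
  group

/-- the conjugate of a point cocycle of `H` is a point cocycle of `σ H σ⁻¹`. -/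
lemma isPtCocycle_conjG {H' H : Subgroup Γ} {σ : Γ} (hH : ∀ g, g ∈ H' ↔ σ⁻¹ * g * σ ∈ H)
    {u : H → Γ → A} (hu : IsPtCocycle d H u) :
    IsPtCocycle d H' (fun a γ => u (conjEltG hH a) (γ * σ)) where
  mul a b γ := by
    rw [conjEltG_mul, hu.mul]
    have : γ * σ * (conjEltG hH a : Γ) = γ * a * σ := by simp only [coe_conjEltG]; group
    rw [this]
  left a γ := by rw [mul_assoc, hu.left]

/-- right multiplication by `σ` induces `Γ ⧸ σHσ⁻¹ ≃ Γ ⧸ H`. -/
def quotConjEquiv {H' H : Subgroup Γ} {σ : Γ} (hH : ∀ g, g ∈ H' ↔ σ⁻¹ * g * σ ∈ H) :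
    Γ ⧸ H' ≃ Γ ⧸ H :=
  Quotient.congr (Equiv.mulRight σ) (fun x y => by
    rw [QuotientGroup.leftRel_apply, QuotientGroup.leftRel_apply, hH]
    have : (Equiv.mulRight σ x)⁻¹ * (Equiv.mulRight σ y) = σ⁻¹ * (x⁻¹ * y) * σ := by
      simp only [Equiv.coe_mulRight]; group
    rw [this])

lemma quotConjEquiv_mk {H' H : Subgroup Γ} {σ : Γ} (hH : ∀ g, g ∈ H' ↔ σ⁻¹ * g * σ ∈ H) (g : Γ) :
    quotConjEquiv hH (QuotientGroup.mk g) = QuotientGroup.mk (g * σ) := rfl

lemma quotConjEquiv_symm_mk {H' H : Subgroup Γ} {σ : Γ} (hH : ∀ g, g ∈ H' ↔ σ⁻¹ * g * σ ∈ H)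
    (g : Γ) : (quotConjEquiv hH).symm (QuotientGroup.mk g) = QuotientGroup.mk (g * σ⁻¹) := by
  rw [Equiv.symm_apply_eq, quotConjEquiv_mk, inv_mul_cancel_right]

lemma quotConjEquiv_smul {H' H : Subgroup Γ} {σ : Γ} (hH : ∀ g, g ∈ H' ↔ σ⁻¹ * g * σ ∈ H)
    (ξ : Γ ⧸ H') : quotConjEquiv hH (d • ξ) = d • quotConjEquiv hH ξ := by
  induction ξ using QuotientGroup.induction_on with
  | H g =>
    change quotConjEquiv hH (QuotientGroup.mk (d * g)) = d • quotConjEquiv hH (QuotientGroup.mk g)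
    rw [quotConjEquiv_mk, quotConjEquiv_mk, mul_assoc]
    rfl

variable [Fintype Γ]

open Classical in
/-- **conjugation invariance** of the transfer sum, between arbitrary conjugate subgroups. -/
theorem trSum_conjG {H' H : Subgroup Γ} {σ : Γ} (hH : ∀ g, g ∈ H' ↔ σ⁻¹ * g * σ ∈ H)
    {u : H → Γ → A} (hu : IsPtCocycle d H u)
    (t' : Γ ⧸ H' → Γ) (ht' : ∀ ξ, (QuotientGroup.mk (t' ξ) : Γ ⧸ H') = ξ)
    (t : Γ ⧸ H → Γ) (ht : ∀ ξ, (QuotientGroup.mk (t ξ) : Γ ⧸ H) = ξ) :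
    trSum d H' (fun a γ => u (conjEltG hH a) (γ * σ)) t' ht' = trSum d H u t ht := by
  set e := quotConjEquiv hH with he
  let tσ : Γ ⧸ H' → Γ := fun ξ' => t (e ξ') * σ⁻¹
  have htσ : ∀ ξ', (QuotientGroup.mk (tσ ξ') : Γ ⧸ H') = ξ' := by
    intro ξ'
    simp only [tσ]
    rw [← quotConjEquiv_symm_mk hH, ht, Equiv.symm_apply_apply]
  have hterm : ∀ ξ' : Γ ⧸ H',
      u (conjEltG hH (trElt d H' tσ htσ ξ')) (tσ (d • ξ') * σ) =
        u (trElt d H t ht (e ξ')) (t (d • e ξ')) := by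
    intro ξ'
    have e1 : conjEltG hH (trElt d H' tσ htσ ξ') = trElt d H t ht (e ξ') := by
      apply Subtype.ext
      simp only [coe_conjEltG, coe_trElt, tσ, he, quotConjEquiv_smul]
      group
    have e2 : tσ (d • ξ') * σ = t (d • e ξ') := by
      simp only [tσ, he, quotConjEquiv_smul, inv_mul_cancel_right]
    rw [e1, e2]
  rw [trSum_eq_of_section d (isPtCocycle_conjG d hH hu) t' ht' tσ htσ]
  unfold trSum
  rw [Finset.sum_congr rfl (fun ξ' _ => hterm ξ')]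
  exact Equiv.sum_comp e (fun ξ => u (trElt d H t ht ξ) (t (d • ξ)))

/-- conjugation as a bijection `σ H σ⁻¹ ≃ H`. -/
def conjEquivG {H' H : Subgroup Γ} {σ : Γ} (hH : ∀ g, g ∈ H' ↔ σ⁻¹ * g * σ ∈ H) : H' ≃ H where
  toFun := conjEltG hH
  invFun b := ⟨σ * b * σ⁻¹, (GSys.conj_mem_iff_aux hH b).1 b.2⟩
  left_inv a := by apply Subtype.ext; simp only [coe_conjEltG]; group
  right_inv b := by apply Subtype.ext; simp only [coe_conjEltG]; group

end ConjGen

/-! ## The `GSys.Sys` -/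

section GSysInst

variable {Γ : Type} [Group Γ] [Fintype Γ] {Z : Rep ℤ Γ} {d : Γ} (E : EvalData Z d)
  {T : Type*} [AddCommGroup T] (θ : ℚ →+ T)

/-- restriction of a global 2-cochain to `H × H`. -/
def restr (H : Subgroup Γ) (f : Γ × Γ → Z) : H × H → Z := fun p => f (p.1, p.2)

lemma restr_apply (H : Subgroup Γ) (f : Γ × Γ → Z) (a b : H) : restr H f (a, b) = f (a, b) := rfl

lemma restr_add (H : Subgroup Γ) (f f' : Γ × Γ → Z) :
    restr H (f + f') = restr H f + restr H f' := rfl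

lemma restr_mem {H : Subgroup Γ} {f : Γ × Γ → Z} (hf : GSys.IsCocOn Z H f) :
    restr H f ∈ cocycles₂ (resH Z H) := by
  rw [mem_cocycles₂_iff]
  intro a b c
  have := hf a a.2 b b.2 c c.2
  change f ((a * b : H), (c : Γ)) + f ((a : Γ), (b : Γ)) =
    Z.ρ (a : Γ) (f ((b : Γ), (c : Γ))) + f ((a : Γ), ((b * c : H) : Γ))
  rw [Subgroup.coe_mul, Subgroup.coe_mul]
  rw [sub_eq_zero] at this
  rw [← this]
  abel

lemma restr_isCob {H : Subgroup Γ} {f : Γ × Γ → Z} (hf : GSys.IsCobOn Z H f) :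
    IsCob₂ (resH Z H) (restr H f) := by
  obtain ⟨c, hc⟩ := hf
  exact ⟨fun h => c h, fun g h => hc g g.2 h h.2⟩

open Classical in
lemma avgTriv_restr_conjC {H' H : Subgroup Γ} {σ : Γ} (hH : ∀ g, g ∈ H' ↔ σ⁻¹ * g * σ ∈ H)
    (f : Γ × Γ → Z) (a : H') (γ : Γ) :
    avgTriv E H' (restr H' (GSys.conjC Z σ f)) a γ =
      avgTriv E H (restr H f) (conjEltG hH a) (γ * σ) := by
  simp only [avgTriv]
  have hcard : Nat.card H' = Nat.card H := Nat.card_congr (conjEquivG hH)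
  rw [hcard]
  congr 2
  have h1 : ∑ k : H', restr H' (GSys.conjC Z σ f) (a, k) =
      Z.ρ σ (∑ k : H', restr H f (conjEltG hH a, conjEltG hH k)) := by
    rw [map_sum]; rfl
  have h2 : ∑ k : H', restr H f (conjEltG hH a, conjEltG hH k) =
      ∑ k : H, restr H f (conjEltG hH a, k) :=
    Equiv.sum_comp (conjEquivG hH) (fun k => restr H f (conjEltG hH a, k))
  rw [h1, h2, E.ev_rho]

/-- **The unramified system on `Z` in global-cochain form.** -/
noncomputable def unrGSys (hθ : θ 1 = 0) : GSys.Sys Z T where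
  S := fun H f => unrSum E θ H (restr H f)
  congr := fun H f f' h => by
    have : restr H f = restr H f' := by
      funext p; exact h p.1 p.1.2 p.2 p.2.2
    rw [this]
  add := fun H f f' _ _ => by rw [restr_add, unrSum_add]
  cob := fun H f hf => unrSum_cob E θ hθ H _ (restr_isCob hf)
  res := fun H' H h f hf => by
    have h1 : resCochain Z h (restr H f) = restr H' f := rfl
    have h2 := unrSum_res E θ hθ h (restr_mem hf)
    rw [h1] at h2
    exact h2
  conj := fun H' H σ hH f hf => by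
    unfold unrSum
    have : (fun (a : H') (γ : Γ) => θ (avgTriv E H' (restr H' (GSys.conjC Z σ f)) a γ)) =
        fun a γ => (fun (a : H) (γ : Γ) => θ (avgTriv E H (restr H f) a γ))
          (conjEltG hH a) (γ * σ) := by
      funext a γ
      rw [avgTriv_restr_conjC E hH]
    rw [this]
    exact trSum_conjG d hH ((isTriv_avgTriv E (restr_mem hf)).ptCocycle E θ hθ) _ _ _ _

lemma unrGSys_S (hθ : θ 1 = 0) (H : Subgroup Γ) (f : Γ × Γ → Z) :
    (unrGSys E θ hθ).S H f = unrSum E θ H (restr H f) := rfl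

variable {n : ℕ} [NeZero n]

open Classical in
/-- the unramified formula in `GSys` form. -/
theorem unrGSys_carry (hθ : θ 1 = 0) (χ : Γ →* Multiplicative (ZMod n)) (H : Subgroup Γ) (a : Z)
    (ha : ∀ h ∈ H, Z.ρ h a = a) :
    (unrGSys E θ hθ).S H (carry Z χ a) =
      (∑ ξ : Γ ⧸ H, E.ev (Quotient.out ξ) a) • fracHom θ hθ n (chiVal χ d) :=
  unrSum_carryH E θ hθ χ H a ha

/-- the unramified formula over the base: `v_ℓ(a) · χ(Frob_ℓ) / n`. -/
theorem unrGSys_carry_top (hθ : θ 1 = 0) (χ : Γ →* Multiplicative (ZMod n)) (a : Z)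
    (ha : ∀ g : Γ, Z.ρ g a = a) :
    (unrGSys E θ hθ).S ⊤ (carry Z χ a) = E.ev 1 a • fracHom θ hθ n (chiVal χ d) :=
  unrSum_carryH_top E θ hθ χ a ha

end GSysInst

end Fermat.Agent.S55.IdeleCoh54.UnrGSys
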