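/-
S55 / leaf 36b-IDELE-COH (helper54), file 4: local structure of the cohomology of the ℤ-layer
`Z = Coind_ψ ℤ` (`ψ : Γ' →* Γ`, `D = ψ.range`) restricted to subgroups `H ≤ Γ`, at cochain level
(no Mackey decomposition, no representatives in the statements):

* `exists_cobound_mod` (orbit lemma): a point cocycle modulo `A₀` which is trivial modulo `A₀` on
  all stabilisers is a point coboundary modulo `A₀`;
* `H¹(H, Z) = 0` for every `H` (elementary and `IsZero` forms);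
* injectivity: a 2-cocycle of `H` all of whose local values are integral is a coboundary;
* (J3) for the ℤ-layer: a cocycle `c` with `m • c ~ 0` dies on every `M ≤ H` all of whose
  stabiliser elements are `m`-th powers of stabiliser elements of `H`.
-/
import Mathlib
import Fermat.Agent.S55.IdeleCoh54.UnrSum

set_option autoImplicit false
set_option linter.unusedSectionVars false

namespace Fermat.Agent.S55.IdeleCoh54.UnrLocal

open groupCohomology Fermat.Agent.S55.GlobalInv91 Fermat.Agent.S55.CycloRecip37.DescendK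
  Fermat.Agent.S55.IdeleCoh54.UnrSum

/-! ## The orbit lemma -/

section Orbit

variable {Γ : Type*} [Group Γ] (D H : Subgroup Γ) {A : Type*} [AddCommGroup A]
  (A₀ : AddSubgroup A)

/-- every element is `δ * rep * h` with `rep` depending only on the double coset. -/
lemma exists_decomp (γ : Γ) : ∃ h : H, ∃ δ ∈ D, γ = δ * (DoubleCoset.mk D H γ).out * h := by
  obtain ⟨δ, k, hδ, hk, he⟩ := DoubleCoset.mk_out_eq_mul D H γ
  refine ⟨⟨k⁻¹, H.inv_mem hk⟩, δ⁻¹, D.inv_mem hδ, ?_⟩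
  rw [he]; simp [mul_assoc]

/-- a chosen `h` with `γ ∈ D * rep γ * h`. -/
noncomputable def pick (γ : Γ) : H := (exists_decomp D H γ).choose

lemma pick_spec (γ : Γ) : ∃ δ ∈ D, γ = δ * (DoubleCoset.mk D H γ).out * (pick D H γ : Γ) :=
  (exists_decomp D H γ).choose_spec

/-- the canonical representative of the right coset `D γ`. -/
noncomputable def rc (γ : Γ) : Γ :=
  (Quotient.mk'' γ : Quotient (QuotientGroup.rightRel D)).out

lemma rc_spec (γ : Γ) : ∃ δ ∈ D, rc D γ = δ * γ := by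
  have h : (QuotientGroup.rightRel D) γ (rc D γ) :=
    Quotient.exact' (Quotient.out_eq' (Quotient.mk'' γ : Quotient (QuotientGroup.rightRel D))).symm
  rw [QuotientGroup.rightRel_apply] at h
  exact ⟨rc D γ * γ⁻¹, h, by group⟩

lemma rc_mul_left {δ : Γ} (hδ : δ ∈ D) (γ : Γ) : rc D (δ * γ) = rc D γ := by
  unfold rc
  congr 1
  apply Quotient.sound'
  rw [QuotientGroup.rightRel_apply]
  have : γ * (δ * γ)⁻¹ = δ⁻¹ := by group
  rw [this]
  exact D.inv_mem hδ

lemma doset_mk_eq {γ γ' : Γ} {δ : Γ} (hδ : δ ∈ D) (h : H) (e : γ' = δ * γ * h) :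
    DoubleCoset.mk D H γ' = DoubleCoset.mk D H γ :=
  ((DoubleCoset.eq D H γ γ').2 ⟨δ, hδ, h, h.2, e⟩).symm

/-- **Orbit lemma.** -/
theorem exists_cobound_mod (u : H → Γ → A)
    (hmul : ∀ (a b : H) (γ : Γ), u (a * b) γ - u b (γ * a) - u a γ ∈ A₀)
    (hleft : ∀ (a : H) (δ : Γ), δ ∈ D → ∀ γ, u a (δ * γ) = u a γ)
    (hstab : ∀ (s : H) (γ : Γ), γ * s * γ⁻¹ ∈ D → u s γ ∈ A₀) :
    ∃ β : Γ → A, (∀ δ ∈ D, ∀ γ, β (δ * γ) = β γ) ∧
      ∀ (a : H) (γ : Γ), u a γ - (β (γ * a) - β γ) ∈ A₀ := by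
  classical
  let β : Γ → A := fun γ => u (pick D H (rc D γ)) ((DoubleCoset.mk D H (rc D γ)).out)
  refine ⟨β, fun δ hδ γ => by simp only [β, rc_mul_left D hδ], fun a γ => ?_⟩
  -- notation
  obtain ⟨δ₁, hδ₁, e₁⟩ := rc_spec D γ
  obtain ⟨δ₂, hδ₂, e₂⟩ := rc_spec D (γ * a)
  set γ₁ := rc D γ with hγ₁
  set γ₂ := rc D (γ * a) with hγ₂
  obtain ⟨ε₁, hε₁, f₁⟩ := pick_spec D H γ₁
  obtain ⟨ε₂, hε₂, f₂⟩ := pick_spec D H γ₂
  set h₁ := pick D H γ₁ with hh₁
  set h₂ := pick D H γ₂ with hh₂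
  have hx : DoubleCoset.mk D H γ₂ = DoubleCoset.mk D H γ₁ := by
    refine doset_mk_eq D H (D.mul_mem hδ₂ (D.inv_mem hδ₁)) a ?_
    rw [e₂, e₁]; group
  rw [hx] at f₂
  set x := (DoubleCoset.mk D H γ₁).out with hxdef
  have hβ1 : β γ = u h₁ x := rfl
  have hβ2 : β (γ * a) = u h₂ x := by
    simp only [β]
    rw [← hγ₂, hx]
  have hx1 : x * (h₁ : Γ) = ε₁⁻¹ * δ₁ * γ := by
    have : x * (h₁ : Γ) = ε₁⁻¹ * (ε₁ * x * (h₁ : Γ)) := by group
    rw [this, ← f₁, e₁, mul_assoc]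
  have hx2 : x * (h₂ : Γ) = ε₂⁻¹ * δ₂ * (γ * a) := by
    have : x * (h₂ : Γ) = ε₂⁻¹ * (ε₂ * x * (h₂ : Γ)) := by group
    rw [this, ← f₂, e₂, mul_assoc]
  -- the stabiliser element
  set s : H := h₁ * a * h₂⁻¹ with hs
  have hsD : x * (s : Γ) * x⁻¹ ∈ D := by
    have : x * (s : Γ) * x⁻¹ = ε₁⁻¹ * δ₁ * δ₂⁻¹ * ε₂ := by
      have h3 : x * (s : Γ) * x⁻¹ = (x * (h₁ : Γ)) * a * (x * (h₂ : Γ))⁻¹ := by
        simp only [hs, Subgroup.coe_mul, InvMemClass.coe_inv]; group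
      rw [h3, hx1, hx2]; group
    rw [this]
    exact D.mul_mem (D.mul_mem (D.mul_mem (D.inv_mem hε₁) hδ₁) (D.inv_mem hδ₂)) hε₂
  have k1 := hmul h₁ a x
  have k2 := hmul s h₂ x
  have k3 := hstab s x hsD
  have hsh : s * h₂ = h₁ * a := by simp [hs]
  have e3 : u a (x * (h₁ : Γ)) = u a γ := by
    rw [hx1, hleft a _ (D.mul_mem (D.inv_mem hε₁) hδ₁)]
  have e4 : u h₂ (x * (s : Γ)) = u h₂ x := by
    have : x * (s : Γ) = (x * (s : Γ) * x⁻¹) * x := by group
    rw [this, hleft h₂ _ hsD]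
  rw [hsh, e4] at k2
  rw [e3] at k1
  rw [hβ1, hβ2]
  have : u a γ - (u h₂ x - u h₁ x) =
      (u (h₁ * a) x - u h₂ x - u s x) - (u (h₁ * a) x - u a γ - u h₁ x) + u s x := by abel
  rw [this]
  exact A₀.add_mem (A₀.sub_mem k2 k1) k3

/-- an exact point cocycle is additive along powers of a stabiliser element, modulo `A₀`. -/
lemma stab_pow_mod (u : H → Γ → A)
    (hmul : ∀ (a b : H) (γ : Γ), u (a * b) γ - u b (γ * a) - u a γ ∈ A₀)
    (hleft : ∀ (a : H) (δ : Γ), δ ∈ D → ∀ γ, u a (δ * γ) = u a γ)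
    (h1 : ∀ γ, u 1 γ ∈ A₀)
    (s : H) (γ : Γ) (hs : γ * s * γ⁻¹ ∈ D) (j : ℕ) : u (s ^ j) γ - j • u s γ ∈ A₀ := by
  induction j with
  | zero => simpa using h1 γ
  | succ j ih =>
    have k := hmul s (s ^ j) γ
    have e : u (s ^ j) (γ * (s : Γ)) = u (s ^ j) γ := by
      have : γ * (s : Γ) = (γ * (s : Γ) * γ⁻¹) * γ := by group
      rw [this, hleft _ _ hs]
    rw [e] at k
    have : u (s ^ (j + 1)) γ - (j + 1) • u s γ =
        (u (s * s ^ j) γ - u (s ^ j) γ - u s γ) + (u (s ^ j) γ - j • u s γ) := by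
      rw [pow_succ', succ_nsmul]; abel
    rw [this]
    exact A₀.add_mem k ih

end Orbit

/-! ## `H¹(H, Coind_ψ ℤ) = 0` -/

section H1

variable {Γ : Type} [Group Γ] [Finite Γ] {Γ' : Type*} [Group Γ'] (ψ : Γ' →* Γ) (H : Subgroup Γ)

/-- a left `ψ.range`-invariant function as an element of `Coind_ψ ℤ`. -/
def ofFun (β : Γ → ℤ) (hβ : ∀ δ ∈ ψ.range, ∀ γ, β (δ * γ) = β γ) : coindInt ψ :=
  ⟨β, fun τ γ => hβ (ψ τ) ⟨τ, rfl⟩ γ⟩

@[simp] lemma ofFun_apply (β : Γ → ℤ) (hβ : ∀ δ ∈ ψ.range, ∀ γ, β (δ * γ) = β γ) (γ : Γ) :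
    (ofFun ψ β hβ).1 γ = β γ := rfl

lemma coindInt_left (f : coindInt ψ) {δ : Γ} (hδ : δ ∈ ψ.range) (γ : Γ) : f.1 (δ * γ) = f.1 γ := by
  obtain ⟨τ, rfl⟩ := hδ
  exact coindInt_apply_mul ψ f τ γ

lemma coindInt_rho_apply (g : Γ) (f : coindInt ψ) (γ : Γ) :
    ((coindInt ψ).ρ g f).1 γ = f.1 (γ * g) := rfl

lemma coindInt_ext {f f' : coindInt ψ} (h : ∀ γ, f.1 γ = f'.1 γ) : f = f' :=
  Subtype.ext (funext h)

/-- **`H¹(H, Coind_ψ ℤ) = 0`, elementary form**: every 1-cocycle of `H` is a coboundary. -/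
theorem exists_eq_rho_sub (f : H → coindInt ψ)
    (hf : ∀ a b : H, f (a * b) = (coindInt ψ).ρ (a : Γ) (f b) + f a) :
    ∃ z : coindInt ψ, ∀ a : H, f a = (coindInt ψ).ρ (a : Γ) z - z := by
  classical
  let u : H → Γ → ℤ := fun a γ => (f a).1 γ
  have hmul0 : ∀ (a b : H) (γ : Γ), u (a * b) γ = u b (γ * a) + u a γ := by
    intro a b γ
    simp only [u, hf a b]
    rfl
  have hmul : ∀ (a b : H) (γ : Γ), u (a * b) γ - u b (γ * a) - u a γ ∈ (⊥ : AddSubgroup ℤ) := by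
    intro a b γ
    rw [AddSubgroup.mem_bot, hmul0]; ring
  have hleft : ∀ (a : H) (δ : Γ), δ ∈ ψ.range → ∀ γ, u a (δ * γ) = u a γ :=
    fun a δ hδ γ => coindInt_left ψ (f a) hδ γ
  have h1 : ∀ γ, u 1 γ ∈ (⊥ : AddSubgroup ℤ) := by
    intro γ
    have := hmul0 1 1 γ
    simp only [mul_one, OneMemClass.coe_one] at this
    rw [AddSubgroup.mem_bot]; omega
  have hstab : ∀ (s : H) (γ : Γ), γ * s * γ⁻¹ ∈ ψ.range → u s γ ∈ (⊥ : AddSubgroup ℤ) := by
    intro s γ hs
    have hfin : Finite H := inferInstance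
    have k := stab_pow_mod ψ.range H ⊥ u hmul hleft h1 s γ hs (orderOf s)
    rw [pow_orderOf_eq_one, AddSubgroup.mem_bot] at k
    have k1 := h1 γ
    rw [AddSubgroup.mem_bot] at k1 ⊢
    rw [k1, zero_sub, neg_eq_zero] at k
    have hpos : 0 < orderOf s := orderOf_pos s
    rcases smul_eq_zero.mp k with h | h
    · exact absurd h hpos.ne'
    · exact h
  obtain ⟨β, hβ, hu⟩ := exists_cobound_mod ψ.range H ⊥ u hmul hleft hstab
  refine ⟨ofFun ψ β hβ, fun a => coindInt_ext ψ (fun γ => ?_)⟩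
  have := hu a γ
  rw [AddSubgroup.mem_bot, sub_eq_zero] at this
  change u a γ = β (γ * a) - β γ
  exact this

/-- **`H¹(H, Coind_ψ ℤ) = 0`** for every subgroup `H`. -/
theorem isZero_H1_coindInt :
    CategoryTheory.Limits.IsZero (groupCohomology (resH (coindInt ψ) H) 1) := by
  have hsub : Subsingleton (H1 (resH (coindInt ψ) H)) := by
    refine ⟨fun x y => ?_⟩
    have h0 : ∀ x : H1 (resH (coindInt ψ) H), x = 0 := by
      intro x
      induction x using H1_induction_on with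
      | h x =>
        rw [H1π_eq_zero_iff]
        have hx := (mem_cocycles₁_iff (A := resH (coindInt ψ) H) x).1 x.2
        obtain ⟨z, hz⟩ := exists_eq_rho_sub ψ H (fun a => x a) (fun a b => hx a b)
        exact ⟨z, funext fun a => (hz a).symm⟩
    rw [h0 x, h0 y]
  exact ModuleCat.isZero_of_subsingleton _

end H1

/-! ## Injectivity of the local values and (J3) -/

section Inj

variable {Γ : Type} [Group Γ] [Fintype Γ] {Γ' : Type*} [Group Γ'] (ψ : Γ' →* Γ)
  (d : Γ) (hd : d ∈ ψ.range) (H : Subgroup Γ)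

/-- the integers inside `ℚ`. -/
def intSub : AddSubgroup ℚ := (Int.castAddHom ℚ).range

lemma mem_intSub {r : ℚ} : r ∈ intSub ↔ ∃ m : ℤ, (m : ℚ) = r := Iff.rfl

lemma intCast_mem_intSub (m : ℤ) : (m : ℚ) ∈ intSub := ⟨m, rfl⟩

open Classical in
lemma avgTriv_left (c : H × H → coindInt ψ) (a : H) {δ : Γ} (hδ : δ ∈ ψ.range) (γ : Γ) :
    avgTriv (coindEval ψ d hd) H c a (δ * γ) = avgTriv (coindEval ψ d hd) H c a γ := by
  simp only [avgTriv]
  have : (coindEval ψ d hd).ev (δ * γ) (∑ k : H, c (a, k)) =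
      (coindEval ψ d hd).ev γ (∑ k : H, c (a, k)) := coindInt_left ψ _ hδ γ
  rw [this]

/-- the local value of a cochain at a stabiliser element is *integral*. -/
def IsIntegralAt (c : H × H → coindInt ψ) : Prop :=
  ∀ (s : H) (γ : Γ), γ * s * γ⁻¹ ∈ ψ.range → avgTriv (coindEval ψ d hd) H c s γ ∈ intSub

open Classical in
/-- **Injectivity**: a 2-cocycle of `H` with values in `Coind_ψ ℤ` all of whose local values
(at the stabilisers `H ∩ γ⁻¹ ψ(Γ') γ`) are integral is a coboundary. -/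
theorem isCob₂_of_integral {c : H × H → coindInt ψ}
    (hc : c ∈ cocycles₂ (resH (coindInt ψ) H)) (hint : IsIntegralAt ψ d hd H c) :
    IsCob₂ (resH (coindInt ψ) H) c := by
  set E := coindEval ψ d hd with hE
  set g := avgTriv E H c with hg
  have htriv := isTriv_avgTriv E hc
  have hmul : ∀ (a b : H) (γ : Γ), g (a * b) γ - g b (γ * a) - g a γ ∈ intSub := by
    intro a b γ
    have h := htriv.1 a b γ
    have : g (a * b) γ - g b (γ * a) - g a γ = ((- E.ev γ (c (a, b)) : ℤ) : ℚ) := by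
      rw [Int.cast_neg, h]; ring
    rw [this]
    exact intCast_mem_intSub _
  have hleft : ∀ (a : H) (δ : Γ), δ ∈ ψ.range → ∀ γ, g a (δ * γ) = g a γ :=
    fun a δ hδ γ => avgTriv_left ψ d hd H c a hδ γ
  obtain ⟨β, hβ, hu⟩ := exists_cobound_mod ψ.range H intSub g hmul hleft hint
  -- the integral 1-cochain
  choose φ hφ using fun (a : H) (γ : Γ) => mem_intSub.1 (hu a γ)
  have hφleft : ∀ (a : H), ∀ δ ∈ ψ.range, ∀ γ, φ a (δ * γ) = φ a γ := by
    intro a δ hδ γ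
    have h1 := hφ a (δ * γ)
    have h2 := hφ a γ
    rw [hleft a δ hδ, mul_assoc, hβ δ hδ, hβ δ hδ] at h1
    exact_mod_cast h1.trans h2.symm
  refine ⟨fun a => ofFun ψ (φ a) (hφleft a), fun a b => coindInt_ext ψ (fun γ => ?_)⟩
  change φ b (γ * a) - φ (a * b) γ + φ a γ = (c (a, b)).1 γ
  have h := htriv.1 a b γ
  have e1 := hφ b (γ * a)
  have e2 := hφ (a * b) γ
  have e3 := hφ a γ
  have : ((φ b (γ * a) - φ (a * b) γ + φ a γ : ℤ) : ℚ) = ((c (a, b)).1 γ : ℚ) := by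
    push_cast
    rw [e1, e2, e3]
    change _ = (E.ev γ (c (a, b)) : ℚ)
    rw [h, Subgroup.coe_mul]
    ring_nf
    rw [mul_assoc]
    ring
  exact_mod_cast this

open Classical in
/-- coboundaries have integral local values. -/
theorem isIntegralAt_of_isCob₂ {c : H × H → coindInt ψ}
    (hc : IsCob₂ (resH (coindInt ψ) H) c) : IsIntegralAt ψ d hd H c := by
  obtain ⟨x, hx⟩ := hc
  intro s γ hs
  set E := coindEval ψ d hd with hE
  have hcard : (Nat.card H : ℚ) ≠ 0 := Nat.cast_ne_zero.mpr Nat.card_pos.ne'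
  set sx : coindInt ψ := ∑ k : H, x k with hsx
  have hsum : ∑ k : H, c (s, k) = (coindInt ψ).ρ (s : Γ) sx - sx + Nat.card H • x s := by
    have h1 : ∑ k : H, x (s * k) = ∑ k : H, x k :=
      Equiv.sum_comp (Equiv.mulLeft s) (fun k => x k)
    rw [hsx, map_sum, ← h1, ← Finset.sum_sub_distrib, Nat.card_eq_fintype_card, ← Finset.card_univ,
      ← Finset.sum_const, ← Finset.sum_add_distrib]
    exact Finset.sum_congr rfl (fun k _ => (hx s k).symm)
  have hstab : E.ev (γ * s) sx = E.ev γ sx := by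
    have : γ * (s : Γ) = (γ * (s : Γ) * γ⁻¹) * γ := by group
    rw [this]
    exact coindInt_left ψ sx hs γ
  have : avgTriv E H c s γ = ((E.ev γ (x s) : ℤ) : ℚ) := by
    simp only [avgTriv]
    rw [hsum]
    simp only [map_add, map_sub, map_nsmul, E.ev_rho, hstab, sub_self, zero_add, nsmul_eq_mul,
      Int.cast_mul, Int.cast_natCast]
    field_simp
  rw [this]
  exact intCast_mem_intSub _

open Classical in
lemma avgTriv_nsmul (m : ℕ) (c : H × H → coindInt ψ) (a : H) (γ : Γ) :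
    avgTriv (coindEval ψ d hd) H (m • c) a γ = m * avgTriv (coindEval ψ d hd) H c a γ := by
  simp only [avgTriv, Pi.smul_apply, ← Finset.smul_sum, map_nsmul, nsmul_eq_mul, Int.cast_mul,
    Int.cast_natCast]
  ring

open Classical in
/-- the local values at stabiliser elements do not depend on the ambient subgroup. -/
theorem avgTriv_res_eq {M : Subgroup Γ} (h : M ≤ H) {c : H × H → coindInt ψ}
    (hc : c ∈ cocycles₂ (resH (coindInt ψ) H)) (s : M) (γ : Γ) (hs : γ * s * γ⁻¹ ∈ ψ.range) :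
    avgTriv (coindEval ψ d hd) M (resCochain (coindInt ψ) h c) s γ =
      avgTriv (coindEval ψ d hd) H c (Subgroup.inclusion h s) γ := by
  set E := coindEval ψ d hd with hE
  have hg := isTriv_avgTriv E hc
  have hg' : IsTriv E M (resCochain (coindInt ψ) h c)
      (fun a γ => avgTriv E H c (Subgroup.inclusion h a) γ) :=
    ⟨fun a b γ => hg.1 (Subgroup.inclusion h a) (Subgroup.inclusion h b) γ,
      fun a γ => hg.2 _ γ⟩
  have hg₁ := isTriv_avgTriv E (resCochain_mem h hc)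
  have hw := hg₁.sub_ptCocycle E hg'
  set w : M → Γ → ℚ := fun a γ => avgTriv E M (resCochain (coindInt ψ) h c) a γ -
    avgTriv E H c (Subgroup.inclusion h a) γ with hwdef
  have hmul : ∀ (a b : M) (γ : Γ), w (a * b) γ - w b (γ * a) - w a γ ∈ (⊥ : AddSubgroup ℚ) := by
    intro a b γ
    rw [AddSubgroup.mem_bot, hw.mul a b γ]; ring
  have hleft : ∀ (a : M) (δ : Γ), δ ∈ ψ.range → ∀ γ, w a (δ * γ) = w a γ := by
    intro a δ hδ γ
    simp only [hwdef, hE, avgTriv_left ψ d hd _ _ _ hδ]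
  have h1 : ∀ γ, w 1 γ ∈ (⊥ : AddSubgroup ℚ) := fun γ => by
    rw [AddSubgroup.mem_bot]; exact hw.one γ
  have k := stab_pow_mod ψ.range M ⊥ w hmul hleft h1 s γ hs (orderOf s)
  rw [pow_orderOf_eq_one, AddSubgroup.mem_bot, hw.one, zero_sub, neg_eq_zero] at k
  have hpos : 0 < orderOf s := orderOf_pos s
  have hz : w s γ = 0 := by
    rcases smul_eq_zero.mp k with h0 | h0
    · exact absurd h0 hpos.ne'
    · exact h0
  exact sub_eq_zero.mp hz

open Classical in
/-- **(J3) for the ℤ-layer.**  If `m • c` is a coboundary on `H` and every stabiliser element of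
`M ≤ H` is the `m`-th power of a stabiliser element of `H` (all local degrees of `H / M` are
divisible by `m`), then `c` restricted to `M` is a coboundary. -/
theorem res_isCob₂_of_nsmul {M : Subgroup Γ} (h : M ≤ H) (m : ℕ) {c : H × H → coindInt ψ}
    (hc : c ∈ cocycles₂ (resH (coindInt ψ) H))
    (hm : IsCob₂ (resH (coindInt ψ) H) (m • c))
    (hpow : ∀ (s : M) (γ : Γ), γ * s * γ⁻¹ ∈ ψ.range →
      ∃ s' : H, γ * s' * γ⁻¹ ∈ ψ.range ∧ (s : Γ) = (s' : Γ) ^ m) :
    IsCob₂ (resH (coindInt ψ) M) (resCochain (coindInt ψ) h c) := by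
  have hd : (1 : Γ) ∈ ψ.range := one_mem _
  set E := coindEval ψ 1 hd with hE
  refine isCob₂_of_integral ψ 1 hd M (resCochain_mem h hc) (fun s γ hs => ?_)
  rw [avgTriv_res_eq ψ 1 hd H h hc s γ hs]
  obtain ⟨s', hs', hpw⟩ := hpow s γ hs
  have hincl : Subgroup.inclusion h s = s' ^ m := by
    apply Subtype.ext
    rw [Subgroup.coe_inclusion, hpw, SubgroupClass.coe_pow]
  rw [hincl]
  -- `g (s' ^ m) γ ≡ m • g s' γ` modulo integers
  set g := avgTriv E H c with hg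
  have htriv := isTriv_avgTriv E hc
  have hmul : ∀ (a b : H) (γ : Γ), g (a * b) γ - g b (γ * a) - g a γ ∈ intSub := by
    intro a b γ
    have h' := htriv.1 a b γ
    have : g (a * b) γ - g b (γ * a) - g a γ = ((- E.ev γ (c (a, b)) : ℤ) : ℚ) := by
      rw [Int.cast_neg, h']; ring
    rw [this]
    exact intCast_mem_intSub _
  have hleft : ∀ (a : H) (δ : Γ), δ ∈ ψ.range → ∀ γ, g a (δ * γ) = g a γ :=
    fun a δ hδ γ => avgTriv_left ψ 1 hd H c a hδ γ
  have h1 : ∀ γ, g 1 γ ∈ intSub := by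
    intro γ
    have := hmul 1 1 γ
    simp only [mul_one, OneMemClass.coe_one] at this
    have e : g 1 γ = -(g 1 γ - g 1 γ - g 1 γ) := by ring
    rw [e]
    exact intSub.neg_mem this
  have k := stab_pow_mod ψ.range H intSub g hmul hleft h1 s' γ hs' m
  have hint := isIntegralAt_of_isCob₂ ψ 1 hd H hm s' γ hs'
  rw [avgTriv_nsmul] at hint
  have : g (s' ^ m) γ = (g (s' ^ m) γ - m • g s' γ) + (m : ℚ) * g s' γ := by
    rw [nsmul_eq_mul]; ring
  rw [this]
  exact intSub.add_mem k hint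

end Inj

end Fermat.Agent.S55.IdeleCoh54.UnrLocal
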