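/-
S55 / leaf 36b-IDELE-COH (helper54), file 5: the system of sums of unramified invariants on the
FULL ideal part `I^S(L) = ⨁_{ℓ ∉ S} Coind ℤ` (helper44's `IdeleVal44.IS L S`), as a locally finite
sum of the systems `UnrGSys.unrGSys` at the primes `ℓ ∉ S` (Frobenius `FrobFin98.frobL ℓ L`),
with the unramified formula on carry cocycles.
-/
import Mathlib
import Fermat.Agent.S55.IdeleCoh54.UnrGSys
import Fermat.Agent.S55.IdeleCoh54.UnrLocal
import Fermat.Agent.S55.IdeleVal44.Ideal
import Fermat.Agent.S55.FrobFin98.Basic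

set_option autoImplicit false
set_option linter.unusedSectionVars false

namespace Fermat.Agent.S55.IdeleCoh54.IdealSys

open groupCohomology Fermat.Agent.S55.GlobalInv91 Fermat.Agent.S55.CycloRecip37.DescendK
  Fermat.Agent.S55.CycloRecip37 Fermat.Agent.S55.IdeleCoh54.UnrSum
  Fermat.Agent.S55.IdeleCoh54.UnrGSys Fermat.Agent.S55.IdeleVal44

open scoped DirectSum

/-! ## Locally finite sums of systems over a direct sum -/

section Generic

variable {G : Type} [Group G] {ι : Type} (A : ι → Rep ℤ G) {T : Type*} [AddCommGroup T]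

/-- the `i`-th component of a 2-cochain with values in the direct sum. -/
def compC (i : ι) (f : G × G → dsRep A) : G × G → A i := fun p => dsRep.toDS A (f p) i

lemma compC_apply (i : ι) (f : G × G → dsRep A) (p : G × G) :
    compC A i f p = dsRep.toDS A (f p) i := rfl

lemma toDS_sub (x y : dsRep A) (i : ι) :
    dsRep.toDS A (x - y) i = dsRep.toDS A x i - dsRep.toDS A y i := rfl

lemma toDS_nsmul (m : ℕ) (x : dsRep A) (i : ι) :
    dsRep.toDS A (m • x) i = m • dsRep.toDS A x i := rfl

lemma compC_add (i : ι) (f f' : G × G → dsRep A) :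
    compC A i (f + f') = compC A i f + compC A i f' := rfl

lemma compC_zero (i : ι) : compC A i (0 : G × G → dsRep A) = 0 := rfl

lemma compC_conjC (i : ι) (σ : G) (f : G × G → dsRep A) :
    compC A i (GSys.conjC (dsRep A) σ f) = GSys.conjC (A i) σ (compC A i f) := rfl

lemma isCocOn_compC {H : Subgroup G} {f : G × G → dsRep A} (hf : GSys.IsCocOn (dsRep A) H f)
    (i : ι) : GSys.IsCocOn (A i) H (compC A i f) := by
  intro g hg h hh l hl
  have := congrArg (fun x => dsRep.toDS A x i) (hf g hg h hh l hl)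
  simpa [toDS_sub, dsRep.toDS_add, dsRep.toDS_zero, dsRep.ρ_apply, compC] using this

lemma isCobOn_compC {H : Subgroup G} {f : G × G → dsRep A} (hf : GSys.IsCobOn (dsRep A) H f)
    (i : ι) : GSys.IsCobOn (A i) H (compC A i f) := by
  obtain ⟨c, hc⟩ := hf
  refine ⟨fun g => dsRep.toDS A (c g) i, fun g hg h hh => ?_⟩
  have := congrArg (fun x => dsRep.toDS A x i) (hc g hg h hh)
  simpa [toDS_sub, dsRep.toDS_add, dsRep.ρ_apply, compC] using this

variable [Finite G]

/-- only finitely many components of a cochain are non-zero. -/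
lemma finite_support_compC (f : G × G → dsRep A) : {i | compC A i f ≠ 0}.Finite := by
  classical
  have hsub : {i | compC A i f ≠ 0} ⊆ ⋃ p : G × G, ((dsRep.toDS A (f p)).support : Set ι) := by
    intro i hi
    have hi' : compC A i f ≠ 0 := hi
    have : ∃ p, compC A i f p ≠ 0 := by
      by_contra hcon
      exact hi' (funext fun p => not_not.1 (fun hp => hcon ⟨p, hp⟩))
    obtain ⟨p, hp⟩ := this
    refine Set.mem_iUnion.2 ⟨p, ?_⟩
    simp only [Finset.mem_coe, DFinsupp.mem_support_toFun]
    exact hp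
  exact (Set.finite_iUnion (fun p => Finset.finite_toSet _)).subset hsub

variable (I : ∀ i, GSys.Sys (A i) T)

lemma finite_support_S (H : Subgroup G) (f : G × G → dsRep A) :
    (Function.support fun i => (I i).S H (compC A i f)).Finite := by
  refine (finite_support_compC A f).subset (fun i hi => ?_)
  simp only [Function.mem_support] at hi
  intro h0
  exact hi (by rw [h0]; exact (I i).zero H)

/-- **the locally finite sum of a family of systems** on the direct sum of their modules. -/
noncomputable def dsSys : GSys.Sys (dsRep A) T where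
  S := fun H f => ∑ᶠ i, (I i).S H (compC A i f)
  congr := fun H f f' h => by
    refine finsum_congr (fun i => (I i).congr H _ _ (fun g hg a ha => ?_))
    simp only [compC_apply, h g hg a ha]
  add := fun H f f' hf hf' => by
    rw [← finsum_add_distrib (finite_support_S A I H f) (finite_support_S A I H f')]
    refine finsum_congr (fun i => ?_)
    rw [compC_add]
    exact (I i).add H _ _ (isCocOn_compC A hf i) (isCocOn_compC A hf' i)
  cob := fun H f hf => by
    rw [finsum_congr (fun i => (I i).cob H _ (isCobOn_compC A hf i))]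
    exact finsum_zero
  res := fun H' H h f hf => by
    rw [smul_finsum' _ (finite_support_S A I H f)]
    exact finsum_congr (fun i => (I i).res H' H h _ (isCocOn_compC A hf i))
  conj := fun H' H σ hH f hf => by
    refine finsum_congr (fun i => ?_)
    rw [compC_conjC]
    exact (I i).conj H' H σ hH _ (isCocOn_compC A hf i)

lemma dsSys_S (H : Subgroup G) (f : G × G → dsRep A) :
    (dsSys A I).S H f = ∑ᶠ i, (I i).S H (compC A i f) := rfl

variable {n : ℕ} [NeZero n]

lemma compC_carry (χ : G →* Multiplicative (ZMod n)) (z : dsRep A) (i : ι) :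
    compC A i (carry (dsRep A) χ z) = carry (A i) χ (dsRep.toDS A z i) := rfl

/-! ### assembling coboundaries componentwise -/

omit [Finite G] in
/-- components of a 2-cochain of a subgroup. -/
lemma toDS_rho (g : G) (x : dsRep A) (i : ι) :
    dsRep.toDS A ((dsRep A).ρ g x) i = (A i).ρ g (dsRep.toDS A x i) := rfl

omit [Finite G] in
open Classical in
/-- a finitely supported family of elements as an element of the direct sum. -/
lemma exists_ofFamily (s : Finset ι) (y : ∀ i, A i) (hy : ∀ i, i ∉ s → y i = 0) :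
    ∃ x : dsRep A, ∀ i, dsRep.toDS A x i = y i := by
  refine ⟨dsRep.ofDS A (DirectSum.mk (fun i => A i) s (fun i => y i.1)), fun i => ?_⟩
  by_cases hi : i ∈ s
  · exact DirectSum.mk_apply_of_mem hi
  · rw [hy i hi]
    exact DirectSum.mk_apply_of_notMem hi

omit [Finite G] in
/-- **1-coboundaries assemble**: if every component of a 1-cocycle of a finite subgroup `H` with
values in the direct sum is a coboundary (e.g. `H¹(H, A i) = 0` for all `i`), it is a
coboundary. -/
theorem exists_eq_rho_sub_ds (H : Subgroup G) [Finite H] (f : H → dsRep A)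
    (hA : ∀ i, ∃ z : A i, ∀ a : H, dsRep.toDS A (f a) i = (A i).ρ (a : G) z - z) :
    ∃ z : dsRep A, ∀ a : H, f a = (dsRep A).ρ (a : G) z - z := by
  classical
  have hfin : {i | ∃ a : H, dsRep.toDS A (f a) i ≠ 0}.Finite := by
    have hsub : {i | ∃ a : H, dsRep.toDS A (f a) i ≠ 0} ⊆
        ⋃ a : H, ((dsRep.toDS A (f a)).support : Set ι) := by
      rintro i ⟨a, ha⟩
      refine Set.mem_iUnion.2 ⟨a, ?_⟩
      simp only [Finset.mem_coe, DFinsupp.mem_support_toFun]
      exact ha
    exact (Set.finite_iUnion (fun a => Finset.finite_toSet _)).subset hsub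
  let y : ∀ i, A i := fun i =>
    if h0 : ∀ a : H, dsRep.toDS A (f a) i = 0 then 0 else (hA i).choose
  have hy : ∀ i (a : H), dsRep.toDS A (f a) i = (A i).ρ (a : G) (y i) - y i := by
    intro i a
    by_cases h0 : ∀ a : H, dsRep.toDS A (f a) i = 0
    · simp only [y, dif_pos h0, map_zero, sub_zero, h0 a]
    · simp only [y, dif_neg h0]
      exact (hA i).choose_spec a
  obtain ⟨z, hz⟩ := exists_ofFamily A hfin.toFinset y (fun i hi => by
    have h0 : ∀ a : H, dsRep.toDS A (f a) i = 0 := by
      intro a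
      by_contra hne
      exact hi (hfin.mem_toFinset.2 ⟨a, hne⟩)
    simp only [y, dif_pos h0])
  refine ⟨z, fun a => dsRep.ext A (fun i => ?_)⟩
  rw [toDS_sub, toDS_rho, hz, hy]

omit [Finite G] in
/-- **2-coboundaries assemble**: a 2-cochain of a finite subgroup `M` with values in the direct
sum all of whose components are coboundaries is a coboundary. -/
theorem isCob₂_ds (M : Subgroup G) [Finite M] (c : M × M → dsRep A)
    (hc : ∀ i, IsCob₂ (resH (A i) M) (fun p => dsRep.toDS A (c p) i)) :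
    IsCob₂ (resH (dsRep A) M) c := by
  classical
  have hfin : {i | ∃ p : M × M, dsRep.toDS A (c p) i ≠ 0}.Finite := by
    have hsub : {i | ∃ p : M × M, dsRep.toDS A (c p) i ≠ 0} ⊆
        ⋃ p : M × M, ((dsRep.toDS A (c p)).support : Set ι) := by
      rintro i ⟨p, hp⟩
      refine Set.mem_iUnion.2 ⟨p, ?_⟩
      simp only [Finset.mem_coe, DFinsupp.mem_support_toFun]
      exact hp
    exact (Set.finite_iUnion (fun p => Finset.finite_toSet _)).subset hsub
  let y : ∀ i, M → A i := fun i =>
    if h0 : ∀ p : M × M, dsRep.toDS A (c p) i = 0 then 0 else (hc i).choose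
  have hy : ∀ i (g h : M), (A i).ρ (g : G) (y i h) - y i (g * h) + y i g =
      dsRep.toDS A (c (g, h)) i := by
    intro i g h
    by_cases h0 : ∀ p : M × M, dsRep.toDS A (c p) i = 0
    · simp only [y, dif_pos h0, Pi.zero_apply, map_zero, sub_zero, add_zero, h0 (g, h)]
    · simp only [y, dif_neg h0]
      exact (hc i).choose_spec g h
  have hy0 : ∀ i, i ∉ hfin.toFinset → ∀ a : M, y i a = 0 := by
    intro i hi a
    have h0 : ∀ p : M × M, dsRep.toDS A (c p) i = 0 := by
      intro p
      by_contra hne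
      exact hi (hfin.mem_toFinset.2 ⟨p, hne⟩)
    simp only [y, dif_pos h0, Pi.zero_apply]
  choose x hx using fun a : M => exists_ofFamily A hfin.toFinset (fun i => y i a)
    (fun i hi => hy0 i hi a)
  refine ⟨x, fun g h => dsRep.ext A (fun i => ?_)⟩
  change dsRep.toDS A ((dsRep A).ρ (g : G) (x h) - x (g * h) + x g) i = _
  rw [dsRep.toDS_add, toDS_sub, toDS_rho, hx, hx, hx, hy]

/-- the binary sum of two systems. -/
def sysAdd {k G' : Type} [CommRing k] [Group G'] {C : Rep k G'} (I J : GSys.Sys C T) :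
    GSys.Sys C T where
  S := fun H f => I.S H f + J.S H f
  congr := fun H f f' h => by rw [I.congr H f f' h, J.congr H f f' h]
  add := fun H f f' hf hf' => by rw [I.add H f f' hf hf', J.add H f f' hf hf']; abel
  cob := fun H f hf => by rw [I.cob H f hf, J.cob H f hf, add_zero]
  res := fun H' H h f hf => by rw [I.res H' H h f hf, J.res H' H h f hf, smul_add]
  conj := fun H' H σ hH f hf => by rw [I.conj H' H σ hH f hf, J.conj H' H σ hH f hf]

end Generic

/-! ## The ideal part `I^S(L)` -/

section Ideal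

open Fermat.Agent.S55.Idele73.Basic Fermat.Agent.S55.FrobFin98

attribute [local instance] factPrimes44

variable (L : IntermediateField ℚ Qbar) [Normal ℚ L] [FiniteDimensional ℚ L]
  (S : Finset Nat.Primes) {T : Type*} [AddCommGroup T] (θ : ℚ →+ T) (hθ : θ 1 = 0)

/-- the Galois group of a finite level is finite (`Fintype.ofFinite`; a LOCAL instance here). -/
noncomputable abbrev fintypeGalL : Fintype (GalL L) := Fintype.ofFinite _

attribute [local instance] fintypeGalL

/-- the evaluation data of the divisors above `ℓ ∉ S`, with the Frobenius `frobL ℓ L`. -/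
noncomputable def evalL (ℓ : OutS S) : EvalData (Zq L ℓ.1.1) (frobL ℓ.1.1 L) :=
  coindEval (locHom ℓ.1.1 L) (frobL ℓ.1.1 L) (frobL_mem_range ℓ.1.1 L)

/-- **the system of sums of unramified invariants on the ideal part** `I^S(L)`. -/
noncomputable def idealSys : GSys.Sys (IS L S) T :=
  dsSys (fun ℓ : OutS S => Zq L ℓ.1.1) (fun ℓ => unrGSys (evalL L S ℓ) θ hθ)

lemma idealSys_S (H : Subgroup (GalL L)) (f : GalL L × GalL L → IS L S) :
    (idealSys L S θ hθ).S H f =
      ∑ᶠ ℓ : OutS S, (unrGSys (evalL L S ℓ) θ hθ).S H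
        (compC (fun ℓ : OutS S => Zq L ℓ.1.1) ℓ f) := rfl

variable {n : ℕ} [NeZero n]

lemma toDS_invariant {H : Subgroup (GalL L)} {z : IS L S} (hz : ∀ h ∈ H, (IS L S).ρ h z = z)
    (ℓ : OutS S) : ∀ h ∈ H, (Zq L ℓ.1.1).ρ h (dsRep.toDS _ z ℓ) = dsRep.toDS _ z ℓ := by
  intro h hh
  have := congrArg (fun x => dsRep.toDS _ x ℓ) (hz h hh)
  simpa [dsRep.ρ_apply] using this

open Classical in
/-- **the unramified formula on the ideal part**, over any subfield `K = L^H`. -/
theorem idealSys_carry (χ : GalL L →* Multiplicative (ZMod n)) (H : Subgroup (GalL L))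
    (z : IS L S) (hz : ∀ h ∈ H, (IS L S).ρ h z = z) :
    (idealSys L S θ hθ).S H (carry (IS L S) χ z) =
      ∑ᶠ ℓ : OutS S, (∑ ξ : GalL L ⧸ H, (dsRep.toDS _ z ℓ).1 (Quotient.out ξ)) •
        fracHom θ hθ n (chiVal χ (frobL ℓ.1.1 L)) := by
  rw [idealSys_S]
  refine finsum_congr (fun ℓ => ?_)
  rw [compC_carry]
  exact unrGSys_carry (evalL L S ℓ) θ hθ χ H _ (toDS_invariant L S hz ℓ)

/-- **the unramified formula over `ℚ`**: `∑_{ℓ ∉ S} v_ℓ(z) • χ(Frob_ℓ)/n`. -/
theorem idealSys_carry_top (χ : GalL L →* Multiplicative (ZMod n))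
    (z : IS L S) (hz : ∀ g, (IS L S).ρ g z = z) :
    (idealSys L S θ hθ).S ⊤ (carry (IS L S) χ z) =
      ∑ᶠ ℓ : OutS S, ((dsRep.toDS _ z ℓ).1 1) • fracHom θ hθ n (chiVal χ (frobL ℓ.1.1 L)) := by
  rw [idealSys_S]
  refine finsum_congr (fun ℓ => ?_)
  rw [compC_carry]
  exact unrGSys_carry_top (evalL L S ℓ) θ hθ χ _
    (fun g => toDS_invariant L S (H := ⊤) (fun h _ => hz h) ℓ g (Subgroup.mem_top g))

variable {L S}

/-- the ideal-part term of the base sum formula for `b ∈ Lˣ` Galois-invariant (`b ∈ ℚˣ`):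
`∑_{ℓ ∉ S} v_ℓ(b) • χ(Frob_ℓ)/n`. -/
theorem idealSys_carry_idealMap (h : UnrOutside L S) (χ : GalL L →* Multiplicative (ZMod n))
    (b : Lx L) (hb : ∀ g, (Lx L).ρ g b = b) :
    ((idealSys L S θ hθ).comap (idealMap h)).S ⊤ (carry (Lx L) χ b) =
      ∑ᶠ ℓ : OutS S, (((divAt h ℓ).hom b).1 1) • fracHom θ hθ n (chiVal χ (frobL ℓ.1.1 L)) := by
  have hz : ∀ g, (IS L S).ρ g ((idealMap h).hom b) = (idealMap h).hom b := by
    intro g
    rw [← Rep.hom_comm_apply, hb]
  have hcarry : (fun x => (idealMap h).hom (carry (Lx L) χ b x)) =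
      carry (IS L S) χ ((idealMap h).hom b) := by
    funext x
    simp only [carry, map_nsmul]
  rw [GSys.Sys.comap_S, hcarry, idealSys_carry_top L S θ hθ χ _ hz]
  refine finsum_congr (fun ℓ => ?_)
  rw [idealMap_hom_apply]

/-! ### vanishing statements for the whole ideal part -/

variable (L S)

/-- **`H¹(H, I^S(L)) = 0`, elementary form** ((J5) for the ideal part): every 1-cocycle of a
subgroup `H ≤ Gal(L/ℚ)` with values in `I^S(L)` is a coboundary. -/
theorem exists_eq_rho_sub_IS (H : Subgroup (GalL L)) (f : H → IS L S)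
    (hf : ∀ a b : H, f (a * b) = (IS L S).ρ (a : GalL L) (f b) + f a) :
    ∃ z : IS L S, ∀ a : H, f a = (IS L S).ρ (a : GalL L) z - z := by
  refine exists_eq_rho_sub_ds (fun ℓ : OutS S => Zq L ℓ.1.1) H f (fun ℓ => ?_)
  refine UnrLocal.exists_eq_rho_sub (locHom ℓ.1.1 L) H (fun a => dsRep.toDS _ (f a) ℓ)
    (fun a b => ?_)
  have := congrArg (fun x => dsRep.toDS _ x ℓ) (hf a b)
  simpa [dsRep.toDS_add, dsRep.ρ_apply] using this

/-- **`H¹(H, I^S(L)) = 0`**. -/
theorem isZero_H1_IS (H : Subgroup (GalL L)) :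
    CategoryTheory.Limits.IsZero (groupCohomology (resH (IS L S) H) 1) := by
  have hsub : Subsingleton (H1 (resH (IS L S) H)) := by
    refine ⟨fun x y => ?_⟩
    have h0 : ∀ x : H1 (resH (IS L S) H), x = 0 := by
      intro x
      induction x using H1_induction_on with
      | h x =>
        rw [H1π_eq_zero_iff]
        have hx := (mem_cocycles₁_iff (A := resH (IS L S) H) x).1 x.2
        obtain ⟨z, hz⟩ := exists_eq_rho_sub_IS L S H (fun a => x a) (fun a b => hx a b)
        exact ⟨z, funext fun a => (hz a).symm⟩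
    rw [h0 x, h0 y]
  exact ModuleCat.isZero_of_subsingleton _

/-- **(J3) for the ideal part**: if `m • c` is a coboundary on `H` and, at every `ℓ ∉ S`, every
stabiliser element of `M ≤ H` is the `m`-th power of a stabiliser element of `H`, then `c`
restricted to `M` is a coboundary. -/
theorem res_isCob₂_of_nsmul_IS {H M : Subgroup (GalL L)} (h : M ≤ H) (m : ℕ)
    {c : H × H → IS L S} (hc : c ∈ cocycles₂ (resH (IS L S) H))
    (hm : IsCob₂ (resH (IS L S) H) (m • c))
    (hpow : ∀ (ℓ : OutS S) (s : M) (γ : GalL L), γ * s * γ⁻¹ ∈ (locHom ℓ.1.1 L).range →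
      ∃ s' : H, γ * s' * γ⁻¹ ∈ (locHom ℓ.1.1 L).range ∧ (s : GalL L) = (s' : GalL L) ^ m) :
    IsCob₂ (resH (IS L S) M) (resCochain (IS L S) h c) := by
  refine isCob₂_ds (fun ℓ : OutS S => Zq L ℓ.1.1) M _ (fun ℓ => ?_)
  -- the `ℓ`-component
  set cℓ : H × H → Zq L ℓ.1.1 := fun p => dsRep.toDS _ (c p) ℓ with hcℓ
  have hcℓmem : cℓ ∈ cocycles₂ (resH (Zq L ℓ.1.1) H) := by
    rw [mem_cocycles₂_iff] at hc ⊢
    intro a b j
    have := congrArg (fun x => dsRep.toDS _ x ℓ) (hc a b j)
    simpa [dsRep.toDS_add, dsRep.ρ_apply] using this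
  have hmℓ : IsCob₂ (resH (Zq L ℓ.1.1) H) (m • cℓ) := by
    obtain ⟨x, hx⟩ := hm
    refine ⟨fun a => dsRep.toDS _ (x a) ℓ, fun a b => ?_⟩
    have := congrArg (fun y => dsRep.toDS _ y ℓ) (hx a b)
    have e : dsRep.toDS (fun ℓ : OutS S => Zq L ℓ.1.1) ((m • c) (a, b)) ℓ = (m • cℓ) (a, b) := rfl
    rw [← e, ← this]
    rfl
  exact UnrLocal.res_isCob₂_of_nsmul (locHom ℓ.1.1 L) H h m hcℓmem hmℓ (hpow ℓ)

end Ideal

end Fermat.Agent.S55.IdeleCoh54.IdealSys
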