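/-
S55 / leaf 36b-IDELE-COH (helper54), file 6: (J2) = invariance of the unramified invariant sum
under change of level (inflation).

`π : Γ' →* Γ` surjective (`Gal(Ω'/ℚ) → Gal(Ω/ℚ)`), `ψ' : D →* Γ'`, `ψ : D →* Γ` with
`ψ = π ∘ ψ'` (`locHom ℓ Ω = res ∘ locHom ℓ Ω'`), `d' ∈ ψ'.range`, `d = π d'` (Frobenius).  The
pull-back of functions `j : Coind_ψ ℤ → Coind_ψ' ℤ`, `(j f) γ' = f (π γ')`, and for `H ≤ Γ`,
`H' = π⁻¹ H`, the inflation of a 2-cochain `c` of `H`: `c' (a, b) = j (c (π a, π b))`.  Then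
`unrSum H' c' = unrSum H c`.
-/
import Mathlib
import Fermat.Agent.S55.IdeleCoh54.UnrGSys

set_option autoImplicit false
set_option linter.unusedSectionVars false

namespace Fermat.Agent.S55.IdeleCoh54.UnrInfl

open groupCohomology Fermat.Agent.S55.GlobalInv91 Fermat.Agent.S55.CycloRecip37.DescendK
  Fermat.Agent.S55.CycloRecip37 Fermat.Agent.S55.IdeleCoh54.UnrSum
  Fermat.Agent.S55.IdeleCoh54.UnrGSys

/-! ## Transfer sums under a surjection -/

section Transfer

variable {Γ' Γ : Type*} [Group Γ'] [Group Γ] (π : Γ' →* Γ) (hπ : Function.Surjective π)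
  {A : Type*} [AddCommGroup A]

/-- the induced map `Γ' ⧸ π⁻¹H → Γ ⧸ H`. -/
def quotMap (H : Subgroup Γ) : Γ' ⧸ H.comap π → Γ ⧸ H :=
  Quotient.map' π (fun a b hab => by
    rw [QuotientGroup.leftRel_apply] at hab ⊢
    have : π (a⁻¹ * b) ∈ H := hab
    simpa using this)

lemma quotMap_mk (H : Subgroup Γ) (g : Γ') :
    quotMap π H (QuotientGroup.mk g) = QuotientGroup.mk (π g) := rfl

include hπ in
lemma quotMap_bijective (H : Subgroup Γ) : Function.Bijective (quotMap π H) := by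
  constructor
  · intro x y
    induction x using QuotientGroup.induction_on with
    | H a =>
      induction y using QuotientGroup.induction_on with
      | H b =>
        intro h
        rw [quotMap_mk, quotMap_mk, QuotientGroup.eq] at h
        rw [QuotientGroup.eq]
        change π (a⁻¹ * b) ∈ H
        simpa using h
  · intro y
    induction y using QuotientGroup.induction_on with
    | H g =>
      obtain ⟨g', rfl⟩ := hπ g
      exact ⟨QuotientGroup.mk g', rfl⟩

lemma quotMap_smul (H : Subgroup Γ) (d' : Γ') (ξ : Γ' ⧸ H.comap π) :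
    quotMap π H (d' • ξ) = π d' • quotMap π H ξ := by
  induction ξ using QuotientGroup.induction_on with
  | H g =>
    change quotMap π H (QuotientGroup.mk (d' * g)) = π d' • quotMap π H (QuotientGroup.mk g)
    rw [quotMap_mk, quotMap_mk, map_mul]
    rfl

/-- `π` restricted to `π⁻¹ H → H`. -/
def comapTo (H : Subgroup Γ) (a : H.comap π) : H := ⟨π a, a.2⟩

@[simp] lemma coe_comapTo (H : Subgroup Γ) (a : H.comap π) : (comapTo π H a : Γ) = π a := rfl

variable [Fintype Γ'] [Fintype Γ]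

include hπ in
open Classical in
/-- the transfer sum of a pulled-back point cochain. -/
theorem trSum_comap (d' : Γ') (H : Subgroup Γ) (u : H → Γ → A)
    (hu : IsPtCocycle (π d') H u)
    (t' : Γ' ⧸ H.comap π → Γ') (ht' : ∀ ξ, (QuotientGroup.mk (t' ξ) : Γ' ⧸ H.comap π) = ξ)
    (t : Γ ⧸ H → Γ) (ht : ∀ ξ, (QuotientGroup.mk (t ξ) : Γ ⧸ H) = ξ) :
    trSum d' (H.comap π) (fun a γ' => u (comapTo π H a) (π γ')) t' ht' =
      trSum (π d') H u t ht := by
  set e := Equiv.ofBijective (quotMap π H) (quotMap_bijective π hπ H) with he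
  -- the section of `Γ ⧸ H` induced by `t'`
  let t₁ : Γ ⧸ H → Γ := fun ξ => π (t' (e.symm ξ))
  have ht₁ : ∀ ξ, (QuotientGroup.mk (t₁ ξ) : Γ ⧸ H) = ξ := by
    intro ξ
    simp only [t₁]
    rw [← quotMap_mk, ht']
    exact e.apply_symm_apply ξ
  rw [trSum_eq_of_section (π d') hu t ht t₁ ht₁]
  unfold trSum
  rw [← Equiv.sum_comp e (fun ξ => u (trElt (π d') H t₁ ht₁ ξ) (t₁ (π d' • ξ)))]
  refine Finset.sum_congr rfl (fun ξ' _ => ?_)
  have h1 : e (d' • ξ') = π d' • e ξ' := quotMap_smul π H d' ξ'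
  have h2 : ∀ η : Γ' ⧸ H.comap π, t₁ (e η) = π (t' η) := by
    intro η; simp only [t₁, Equiv.symm_apply_apply]
  have h3 : comapTo π H (trElt d' (H.comap π) t' ht' ξ') = trElt (π d') H t₁ ht₁ (e ξ') := by
    apply Subtype.ext
    simp only [coe_comapTo, coe_trElt, map_mul, map_inv, ← h1, h2]
  beta_reduce
  rw [h3, ← h1, h2]

end Transfer

/-! ## Inflation of cochains -/

section Cochain

variable {Γ' Γ : Type} [Group Γ'] [Group Γ] [Fintype Γ'] [Fintype Γ] (π : Γ' →* Γ)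
  (hπ : Function.Surjective π)
  {Z' : Rep ℤ Γ'} {Z : Rep ℤ Γ} {d' : Γ'} (E' : EvalData Z' d') (E : EvalData Z (π d'))
  (j : Z →+ Z') (hj : ∀ (γ' : Γ') (z : Z), E'.ev γ' (j z) = E.ev (π γ') z)
  (hjρ : ∀ (g' : Γ') (z : Z), j (Z.ρ (π g') z) = Z'.ρ g' (j z))
  {T : Type*} [AddCommGroup T] (θ : ℚ →+ T)

lemma comapTo_mul (H : Subgroup Γ) (a b : H.comap π) :
    comapTo π H (a * b) = comapTo π H a * comapTo π H b := by
  apply Subtype.ext
  simp

/-- the inflation of a 2-cochain of `H` to `π⁻¹ H`. -/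
def inflC (H : Subgroup Γ) (c : H × H → Z) : H.comap π × H.comap π → Z' :=
  fun p => j (c (comapTo π H p.1, comapTo π H p.2))

include hjρ in
lemma inflC_mem {H : Subgroup Γ} {c : H × H → Z} (hc : c ∈ cocycles₂ (resH Z H)) :
    inflC π j H c ∈ cocycles₂ (resH Z' (H.comap π)) := by
  rw [mem_cocycles₂_iff] at hc ⊢
  intro a b k
  have h := hc (comapTo π H a) (comapTo π H b) (comapTo π H k)
  have h' := congrArg j h
  simp only [map_add] at h'
  change j (c (comapTo π H (a * b), comapTo π H k)) + j (c (comapTo π H a, comapTo π H b)) =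
    Z'.ρ (a : Γ') (j (c (comapTo π H b, comapTo π H k))) +
      j (c (comapTo π H a, comapTo π H (b * k)))
  rw [comapTo_mul, comapTo_mul, ← hjρ]
  exact h'

include hπ hj hjρ in
open Classical in
/-- **(J2)**: the unramified invariant sum is invariant under inflation. -/
theorem unrSum_inflC (hθ : θ 1 = 0) (H : Subgroup Γ) {c : H × H → Z}
    (hc : c ∈ cocycles₂ (resH Z H)) :
    unrSum E' θ (H.comap π) (inflC π j H c) = unrSum E θ H c := by
  have hg := isTriv_avgTriv E hc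
  have hg' : IsTriv E' (H.comap π) (inflC π j H c)
      (fun a γ' => avgTriv E H c (comapTo π H a) (π γ')) := by
    refine ⟨fun a b γ' => ?_, fun a γ' => ?_⟩
    · have h := hg.1 (comapTo π H a) (comapTo π H b) (π γ')
      change ((E'.ev γ' (j (c (comapTo π H a, comapTo π H b))) : ℤ) : ℚ) = _
      rw [hj, h]
      beta_reduce
      rw [comapTo_mul, coe_comapTo, map_mul]
    · beta_reduce
      rw [map_mul, hg.2]
  rw [unrSum_eq_of_triv E' θ hθ (inflC_mem π j hjρ hc) hg' Quotient.out QuotientGroup.out_eq']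
  exact trSum_comap π hπ d' H (fun a γ => θ (avgTriv E H c a γ)) (hg.ptCocycle E θ hθ) _ _ _ _

include hπ hj hjρ in
/-- (J2) in `GSys` form: for a global cochain `f` of `Γ`, inflated to `Γ'`. -/
theorem unrGSys_infl (hθ : θ 1 = 0) (H : Subgroup Γ) {f : Γ × Γ → Z}
    (hf : GSys.IsCocOn Z H f) :
    (unrGSys E' θ hθ).S (H.comap π) (fun p => j (f (π p.1, π p.2))) =
      (unrGSys E θ hθ).S H f := by
  have h1 : restr (H.comap π) (fun p : Γ' × Γ' => j (f (π p.1, π p.2))) =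
      inflC π j H (restr H f) := rfl
  rw [unrGSys_S, unrGSys_S, h1]
  exact unrSum_inflC π hπ E' E j hj hjρ θ hθ H (restr_mem hf)

end Cochain

/-! ## The coinduced module -/

section Coind

variable {Γ' Γ : Type} [Group Γ'] [Group Γ] (π : Γ' →* Γ) {D : Type*} [Group D]
  (ψ' : D →* Γ') (ψ : D →* Γ) (hψ : ∀ τ, ψ τ = π (ψ' τ))

/-- pull-back of functions `Coind_ψ ℤ → Coind_ψ' ℤ` along `π`. -/
def pullInt : coindInt ψ →+ coindInt ψ' where
  toFun f := ⟨fun γ' => f.1 (π γ'), fun τ γ' => by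
    change f.1 (π (ψ' τ * γ')) = f.1 (π γ')
    rw [map_mul, ← hψ]
    exact coindInt_apply_mul ψ f τ (π γ')⟩
  map_zero' := rfl
  map_add' _ _ := rfl

@[simp] lemma pullInt_apply (f : coindInt ψ) (γ' : Γ') :
    (pullInt π ψ' ψ hψ f).1 γ' = f.1 (π γ') := rfl

lemma pullInt_rho (g' : Γ') (f : coindInt ψ) :
    pullInt π ψ' ψ hψ ((coindInt ψ).ρ (π g') f) = (coindInt ψ').ρ g' (pullInt π ψ' ψ hψ f) := by
  apply Subtype.ext
  funext γ'
  change f.1 (π γ' * π g') = f.1 (π (γ' * g'))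
  rw [map_mul]

include hψ in
lemma map_mem_range {d' : Γ'} (hd' : d' ∈ ψ'.range) : π d' ∈ ψ.range := by
  obtain ⟨τ, rfl⟩ := hd'
  exact ⟨τ, hψ τ⟩

variable [Fintype Γ'] [Fintype Γ] (hπ : Function.Surjective π)
  {T : Type*} [AddCommGroup T] (θ : ℚ →+ T)

include hπ in
/-- **(J2) for `Coind ℤ`**: change of level. -/
theorem unrGSys_coind_infl (hθ : θ 1 = 0) {d' : Γ'} (hd' : d' ∈ ψ'.range) (H : Subgroup Γ)
    {f : Γ × Γ → coindInt ψ} (hf : GSys.IsCocOn (coindInt ψ) H f) :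
    (unrGSys (coindEval ψ' d' hd') θ hθ).S (H.comap π)
        (fun p => pullInt π ψ' ψ hψ (f (π p.1, π p.2))) =
      (unrGSys (coindEval ψ (π d') (map_mem_range π ψ' ψ hψ hd')) θ hθ).S H f :=
  unrGSys_infl π hπ (coindEval ψ' d' hd') (coindEval ψ (π d') (map_mem_range π ψ' ψ hψ hd'))
    (pullInt π ψ' ψ hψ) (fun _ _ => rfl) (pullInt_rho π ψ' ψ hψ) θ hθ H hf

end Coind

end Fermat.Agent.S55.IdeleCoh54.UnrInfl
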