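/-
S55 / leaf 36b-IDELE-COH (helper54), file 7: (J2) for the full ideal part: the system
`IdealSys.idealSys` on `I^S(Ω)` is compatible with change of level `Ω ≤ Ω'`
(`r : Gal(Ω'/ℚ) → Gal(Ω/ℚ)` with `r ∘ resL Ω' = resL Ω`, e.g. `CLDescent35.Level.resLev`).
-/
import Mathlib
import Fermat.Agent.S55.IdeleCoh54.IdealSys
import Fermat.Agent.S55.IdeleCoh54.UnrInfl

set_option autoImplicit false
set_option linter.unusedSectionVars false

namespace Fermat.Agent.S55.IdeleCoh54.IdealInfl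

open groupCohomology Fermat.Agent.S55.GlobalInv91 Fermat.Agent.S55.CycloRecip37.DescendK
  Fermat.Agent.S55.CycloRecip37 Fermat.Agent.S55.IdeleCoh54.UnrSum
  Fermat.Agent.S55.IdeleCoh54.UnrGSys Fermat.Agent.S55.IdeleCoh54.UnrInfl
  Fermat.Agent.S55.IdeleCoh54.IdealSys Fermat.Agent.S55.IdeleVal44
  Fermat.Agent.S55.Idele73.Basic Fermat.Agent.S55.FrobFin98

open scoped DirectSum

attribute [local instance] factPrimes44 fintypeGalL

section

variable {Γ : Type} [Group Γ] [Fintype Γ] {Γ' : Type*} [Group Γ'] (ψ : Γ' →* Γ)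
  {T : Type*} [AddCommGroup T] (θ : ℚ →+ T) (hθ : θ 1 = 0)

/-- the system only depends on the element `d`, not on the proof of membership. -/
lemma unrGSys_coindEval_congr {d₁ d₂ : Γ} (e : d₁ = d₂) (h₁ : d₁ ∈ ψ.range) (h₂ : d₂ ∈ ψ.range)
    (H : Subgroup Γ) (f : Γ × Γ → coindInt ψ) :
    (unrGSys (coindEval ψ d₁ h₁) θ hθ).S H f = (unrGSys (coindEval ψ d₂ h₂) θ hθ).S H f := by
  subst e
  rfl

end

variable (Ω Ω' : IntermediateField ℚ Qbar) [Normal ℚ Ω] [Normal ℚ Ω'] [FiniteDimensional ℚ Ω]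
  [FiniteDimensional ℚ Ω'] (S : Finset Nat.Primes)
  (r : GalL Ω' →* GalL Ω) (hr : r.comp (resL Ω') = resL Ω)
  {T : Type*} [AddCommGroup T] (θ : ℚ →+ T) (hθ : θ 1 = 0)

include hr in
lemma r_surjective : Function.Surjective r := by
  intro g
  obtain ⟨σ, rfl⟩ := resL_surjective Ω g
  exact ⟨resL Ω' σ, by rw [← hr]; rfl⟩

include hr in
lemma locHom_eq (q : ℕ) [Fact q.Prime] (τ : Gq q) : locHom q Ω τ = r (locHom q Ω' τ) := by
  rw [locHom, locHom, ← hr]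
  rfl

/-- the inflation `I^S(Ω) → I^S(Ω')` (pull-back of divisors). -/
noncomputable def inflIS : IS Ω S →+ IS Ω' S :=
  DirectSum.map (fun ℓ : OutS S =>
    pullInt r (locHom ℓ.1.1 Ω') (locHom ℓ.1.1 Ω) (locHom_eq Ω Ω' r hr ℓ.1.1))

lemma inflIS_apply (z : IS Ω S) (ℓ : OutS S) :
    dsRep.toDS _ (inflIS Ω Ω' S r hr z) ℓ =
      pullInt r (locHom ℓ.1.1 Ω') (locHom ℓ.1.1 Ω) (locHom_eq Ω Ω' r hr ℓ.1.1)
        (dsRep.toDS _ z ℓ) :=
  DirectSum.map_apply _ _ _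

/-- **(J2) for the ideal part**: for `H ≤ Gal(Ω/ℚ)`, `H' = r⁻¹ H ≤ Gal(Ω'/ℚ)` and a cocycle `f`
on `H`, the inflated cochain has the same sum of unramified invariants. -/
theorem idealSys_infl (H : Subgroup (GalL Ω)) {f : GalL Ω × GalL Ω → IS Ω S}
    (hf : GSys.IsCocOn (IS Ω S) H f) :
    (idealSys Ω' S θ hθ).S (H.comap r) (fun p => inflIS Ω Ω' S r hr (f (r p.1, r p.2))) =
      (idealSys Ω S θ hθ).S H f := by
  rw [idealSys_S, idealSys_S]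
  refine finsum_congr (fun ℓ => ?_)
  have hcomp : compC (fun ℓ : OutS S => Zq Ω' ℓ.1.1) ℓ
      (fun p => inflIS Ω Ω' S r hr (f (r p.1, r p.2))) =
      fun p => pullInt r (locHom ℓ.1.1 Ω') (locHom ℓ.1.1 Ω) (locHom_eq Ω Ω' r hr ℓ.1.1)
        (compC (fun ℓ : OutS S => Zq Ω ℓ.1.1) ℓ f (r p.1, r p.2)) := by
    funext p
    exact inflIS_apply Ω Ω' S r hr _ ℓ
  rw [hcomp]
  have h := unrGSys_coind_infl r (locHom ℓ.1.1 Ω') (locHom ℓ.1.1 Ω) (locHom_eq Ω Ω' r hr ℓ.1.1)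
    (r_surjective Ω Ω' r hr) θ hθ (frobL_mem_range ℓ.1.1 Ω') H
    (isCocOn_compC (fun ℓ : OutS S => Zq Ω ℓ.1.1) hf ℓ)
  rw [evalL, evalL]
  rw [h]
  exact unrGSys_coindEval_congr (locHom ℓ.1.1 Ω) θ hθ (map_frobL ℓ.1.1 Ω' r hr) _ _ H _

end Fermat.Agent.S55.IdeleCoh54.IdealInfl
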