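/-
S55 / 36b-IDELE-COH (helper54), file 9: SEAM `fullDeg` → `FinLayerHyp` (helper91/helper35).

`finLayerHyp_towerCharK`: the whole structure `GlobalInv91.FinLayerHyp (sesRes h H) p m χ invJ`
for the D2 idele sequence over `K = L^H`, `χ := towerCharK` (helper87),
`invJ := SysH2.toH2top (SysH2.restrict H I)`, from helper35's `FinFields.finLayerHyp_of` +
`FullDeg.fullDeg_towerCharK`: the ONLY remaining arithmetic field is `recT` (34, helper37).
-/
import Mathlib
import Fermat.Agent.S55.IdeleCoh54.FullDeg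
import Fermat.Agent.S55.CLDescent35.FinFields

set_option autoImplicit false

namespace Fermat.Agent.S55.IdeleCoh54.FullDegSeam

open groupCohomology CategoryTheory
open Fermat.Agent.S55.GlobalInv91 Fermat.Agent.S55.CycloRecip37
  Fermat.Agent.S55.CycloRecip37.SysH2 Fermat.Agent.S55.CycloRecip37.DescendK
  Fermat.Agent.S55.IdeleVal44 Fermat.Agent.S55.IdeleCoh54.IdealSys
  Fermat.Agent.S55.Idele73.Basic Fermat.Agent.S55.CLDescent35.Hilbert90
  Fermat.Agent.S55.CLDescent35.FinFields Fermat.Agent.S55.QZ33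
  Fermat.Agent.S55.CycloGlobal87 Fermat.Agent.S55.Adapt77.HcycGlue

attribute [local instance] factPrimes44 fintypeGalL

variable {p : ℕ} [hp : Fact p.Prime] {L : IntermediateField ℚ Qbar} [Normal ℚ L]
  [FiniteDimensional ℚ L] {S : Finset Nat.Primes}

/-- **`FinLayerHyp` for the tower layer of the D2 sequence**, modulo `recT`. -/
theorem finLayerHyp_towerCharK (hp2 : p ≠ 2) (hL : L.IsUnramifiedOutside S)
    (h : UnrOutside L S) (hS : S.Nonempty) (H : Subgroup (GalL L))
    (h31 : FirstIneqOut (CS h) ⊤ p) {H₁ : Subgroup (GalL L)}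
    (hH : Fermat.Agent.S55.CLDescent35.OutTop.H0 p L ≤ H₁) (h32 : SecondIneqOut (CS h) H₁ p)
    (θ : ℚ →+ QZ) (hθ : θ 1 = 0) (hθc : ∀ x : ℚ, θ x = ((x : ℚ) : QZ))
    (I : GSys.Sys (JIS L S) QZ)
    (hI : ∀ (H' : Subgroup (GalL L)) (f : GalL L × GalL L → IS L S),
      (I.comap (prodRep.inr (JS L S) (IS L S))).S H' f = (idealSys L S θ hθ).S H' f)
    (j m : ℕ) (hle : towerField p (j + m) ≤ L)
    (hj : ∀ g ∈ H,
      towerCharL p L hp2 j ((towerField_mono p (Nat.le_add_right j m)).trans hle) g = 1)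
    (hm : 1 ≤ m)
    (hex : ∃ g ∈ H, towerCharL p L hp2 (j + 1)
      ((towerField_mono p (Nat.add_le_add_left hm j)).trans hle) g ≠ 1)
    (recT : ∀ b : (sesRes h H).X₁.ρ.invariants,
      toH2top (restrict H I) ((push₂ (sesRes h H).f).hom
        (carryH2 (sesRes h H).X₁ (towerCharK p hp2 L H j m hle hj) b)) = 0) :
    FinLayerHyp (sesRes h H) p m (towerCharK p hp2 L H j m hle hj) (toH2top (restrict H I)) :=
  finLayerHyp_of h hS H h31 hH h32 (towerCharK p hp2 L H j m hle hj) (toH2top (restrict H I))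
    (exists_chiVal_towerCharK_eq_one p hp2 L H j m hle hj hm hex) recT
    (FullDeg.fullDeg_towerCharK p hp2 hL h θ hθ hθc I hI H j m hle hj hm hex)

end Fermat.Agent.S55.IdeleCoh54.FullDegSeam
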