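/-
S55 / 36b-IDELE-COH (helper54), file 11: SEAM between the two normal forms of the invariant map of a
system `I : GSys.Sys C T` on `H²(H, C)`:

* `SysH2.toH2top (SysH2.restrict H I)`  (helper37's `recT` / `invJ_push₂_carryH2`, my `fullDeg`);
* `SysMore.toH2 I H`                     (helper53's `invTot_infl₂`, the `invJU i` of slot A3).

`toH2top_restrict : toH2top (restrict H I) = SysMore.toH2 I H`, and the fields `fullDeg` /
`FinLayerHyp` of the D2 tower layer restated for `invJ := SysMore.toH2 I H`.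
-/
import Mathlib
import Fermat.Agent.S55.IdeleCoh54.FullDegSeam

set_option autoImplicit false

namespace Fermat.Agent.S55.IdeleCoh54.ToH2Bridge

open groupCohomology CategoryTheory
open Fermat.Agent.S55.GlobalInv91 Fermat.Agent.S55.CycloRecip37
  Fermat.Agent.S55.CycloRecip37.SysH2 Fermat.Agent.S55.CycloRecip37.DescendK
  Fermat.Agent.S55.ProfinGlobal22

section Generic

universe u

variable {k G : Type u} [CommRing k] [Group G] {C : Rep.{u, u, u} k G} {T : Type*}
  [AddCommGroup T]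

/-- **the two invariant maps of a system on `H²(H, C)` agree.** -/
theorem toH2top_restrict (I : GSys.Sys C T) (H : Subgroup G) :
    toH2top (restrict H I) = SysMore.toH2 I H := by
  apply AddMonoidHom.ext
  intro y
  obtain ⟨c, rfl⟩ := H2π_surjective (resH C H) y
  rw [toH2top_H2π, SysMore.toH2_H2π, restrict_S]
  have htop : (⊤ : Subgroup H).map H.subtype = H := by
    rw [← MonoidHom.range_eq_map, Subgroup.range_subtype]
  exact I.congr_subgroup htop _

end Generic

section D2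

open Fermat.Agent.S55.IdeleVal44 Fermat.Agent.S55.IdeleCoh54.IdealSys
  Fermat.Agent.S55.Idele73.Basic Fermat.Agent.S55.CLDescent35.Hilbert90
  Fermat.Agent.S55.CLDescent35.FinFields Fermat.Agent.S55.QZ33
  Fermat.Agent.S55.CycloGlobal87 Fermat.Agent.S55.Adapt77.HcycGlue

attribute [local instance] factPrimes44 fintypeGalL

variable {p : ℕ} [hp : Fact p.Prime] {L : IntermediateField ℚ Qbar} [Normal ℚ L]
  [FiniteDimensional ℚ L] {S : Finset Nat.Primes}

/-- `FullDeg.exists_fullDeg` for `invJ := SysMore.toH2 I H`. -/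
theorem exists_fullDeg' (hL : L.IsUnramifiedOutside S) (h : UnrOutside L S) (θ : ℚ →+ QZ)
    (hθ : θ 1 = 0) (hθc : ∀ x : ℚ, θ x = ((x : ℚ) : QZ)) (I : GSys.Sys (JIS L S) QZ)
    (hI : ∀ (H' : Subgroup (GalL L)) (f : GalL L × GalL L → IS L S),
      (I.comap (prodRep.inr (JS L S) (IS L S))).S H' f = (idealSys L S θ hθ).S H' f)
    (H : Subgroup (GalL L)) {n : ℕ} [NeZero n] (j m : ℕ) (hn : n = p ^ j * p ^ m) (hm : m ≠ 0)
    (χ' : GalL L →* Multiplicative (ZMod n)) (χ : H →* Multiplicative (ZMod (p ^ m)))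
    (hχ : Function.Surjective χ)
    (hval : ∀ g : H, (chiVal χ' (g : GalL L)).val = p ^ j * (chiVal χ g).val) :
    ∃ c₀ : H2 ((sesRes h H).X₂.quotientToInvariants χ.ker),
      addOrderOf (SysMore.toH2 I H ((infl₂ (sesRes h H).X₂ χ.ker).hom c₀)) = p ^ m := by
  rw [← toH2top_restrict]
  exact FullDeg.exists_fullDeg p hL h θ hθ hθc I hI H j m hn hm χ' χ hχ hval

/-- `FullDeg.fullDeg_towerCharK` for `invJ := SysMore.toH2 I H`. -/
theorem fullDeg_towerCharK' (hp2 : p ≠ 2) (hL : L.IsUnramifiedOutside S) (h : UnrOutside L S)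
    (θ : ℚ →+ QZ) (hθ : θ 1 = 0) (hθc : ∀ x : ℚ, θ x = ((x : ℚ) : QZ))
    (I : GSys.Sys (JIS L S) QZ)
    (hI : ∀ (H' : Subgroup (GalL L)) (f : GalL L × GalL L → IS L S),
      (I.comap (prodRep.inr (JS L S) (IS L S))).S H' f = (idealSys L S θ hθ).S H' f)
    (H : Subgroup (GalL L)) (j m : ℕ) (hle : towerField p (j + m) ≤ L)
    (hj : ∀ g ∈ H,
      towerCharL p L hp2 j ((towerField_mono p (Nat.le_add_right j m)).trans hle) g = 1)
    (hm : 1 ≤ m)
    (hex : ∃ g ∈ H, towerCharL p L hp2 (j + 1)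
      ((towerField_mono p (Nat.add_le_add_left hm j)).trans hle) g ≠ 1) :
    ∃ c₀ : H2 ((sesRes h H).X₂.quotientToInvariants (towerCharK p hp2 L H j m hle hj).ker),
      addOrderOf (SysMore.toH2 I H
        ((infl₂ (sesRes h H).X₂ (towerCharK p hp2 L H j m hle hj).ker).hom c₀)) = p ^ m := by
  rw [← toH2top_restrict]
  exact FullDeg.fullDeg_towerCharK p hp2 hL h θ hθ hθc I hI H j m hle hj hm hex

/-- `FullDegSeam.finLayerHyp_towerCharK` for `invJ := SysMore.toH2 I H`. -/
theorem finLayerHyp_towerCharK' (hp2 : p ≠ 2) (hL : L.IsUnramifiedOutside S)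
    (h : UnrOutside L S) (hS : S.Nonempty) (H : Subgroup (GalL L))
    (h31 : FirstIneqOut (CS h) ⊤ p) {H₁ : Subgroup (GalL L)}
    (hH : Fermat.Agent.S55.CLDescent35.OutTop.H0 p L ≤ H₁) (h32 : SecondIneqOut (CS h) H₁ p)
    (θ : ℚ →+ QZ) (hθ : θ 1 = 0) (hθc : ∀ x : ℚ, θ x = ((x : ℚ) : QZ))
    (I : GSys.Sys (JIS L S) QZ)
    (hI : ∀ (H' : Subgroup (GalL L)) (f : GalL L × GalL L → IS L S),
      (I.comap (prodRep.inr (JS L S) (IS L S))).S H' f = (idealSys L S θ hθ).S H' f)
    (j m : ℕ) (hle : towerField p (j + m) ≤ L)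
    (hj : ∀ g ∈ H,
      towerCharL p L hp2 j ((towerField_mono p (Nat.le_add_right j m)).trans hle) g = 1)
    (hm : 1 ≤ m)
    (hex : ∃ g ∈ H, towerCharL p L hp2 (j + 1)
      ((towerField_mono p (Nat.add_le_add_left hm j)).trans hle) g ≠ 1)
    (recT : ∀ b : (sesRes h H).X₁.ρ.invariants,
      SysMore.toH2 I H ((push₂ (sesRes h H).f).hom
        (carryH2 (sesRes h H).X₁ (towerCharK p hp2 L H j m hle hj) b)) = 0) :
    FinLayerHyp (sesRes h H) p m (towerCharK p hp2 L H j m hle hj) (SysMore.toH2 I H) := by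
  rw [← toH2top_restrict] at recT ⊢
  exact FullDegSeam.finLayerHyp_towerCharK hp2 hL h hS H h31 hH h32 θ hθ hθc I hI j m hle hj hm
    hex recT

end D2

end Fermat.Agent.S55.IdeleCoh54.ToH2Bridge
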