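/-
S55 / 36b-IDELE-COH (helper54), file 10: LEVEL CHANGE OF A COINDUCED SYSTEM (generic).

`j : D →* G`, `A : Rep k D` (level `Ω`: `G = Gal(Ω/ℚ)`, `D` the local Galois group, `A` the local
units) and `j' : D' →* G'`, `A' : Rep k D'` (level `Ω' ⊇ Ω`), with the restrictions `r : G' → G`,
`ρ : D' → D` (`r ∘ j' = j ∘ ρ`) and the inclusion `φ : A → A'` (`ρ`-equivariant).  If the local
systems `I` (on `(D, A)`) and `I'` (on `(D', A')`) are compatible with inflation along `(ρ, φ)`
(`hloc`), then helper37's coinduced systems `coindSys I`, `coindSys I'` are compatible with inflation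
along `(r, inflM)`:
`(coindSys I').S (r⁻¹ H) (inflCo f) = (coindSys I).S H f`.
This is the `q`-component (`q ∈ S`) of the inflation invariance `htr` of the total idelic invariant.
-/
import Mathlib
import Fermat.Agent.S55.CycloRecip37.CoindSys

set_option autoImplicit false
set_option linter.unusedSectionVars false

namespace Fermat.Agent.S55.IdeleCoh54.CoindInfl

open Fermat.Agent.S55.Idele73.Mackey Fermat.Agent.S55.CycloRecip37.GSys
  Fermat.Agent.S55.CycloRecip37.CoindSys

variable {k : Type} [CommRing k] {D G D' G' : Type} [Group D] [Group G] [Group D'] [Group G']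
  (j : D →* G) (A : Rep.{0} k D) (j' : D' →* G') (A' : Rep.{0} k D')
  (r : G' →* G) (ρ : D' →* D) (hcomm : ∀ d' : D', r (j' d') = j (ρ d'))
  (φ : A →+ A') (hφ : ∀ (d' : D') (a : A), A'.ρ d' (φ a) = φ (A.ρ (ρ d') a))

/-! ### inflation of elements and cochains -/

include hcomm hφ in
/-- the defining equivariance of an inflated element. -/
lemma inflM_aux (F : M j A) (d' : D') (x' : G') :
    φ (F.1 (r (j' d' * x'))) = A'.ρ d' (φ (F.1 (r x'))) := by
  rw [map_mul, hcomm, hφ]
  exact congrArg φ (F.2 (ρ d') (r x'))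

/-- inflation `Coind_j A → Coind_{j'} A'`: `(inflM F)(x') = φ (F (r x'))`. -/
def inflM (F : M j A) : M j' A' :=
  ⟨fun x' => φ (F.1 (r x')), fun d' x' => inflM_aux j A j' A' r ρ hcomm φ hφ F d' x'⟩

lemma inflM_apply (F : M j A) (x' : G') :
    (inflM j A j' A' r ρ hcomm φ hφ F).1 x' = φ (F.1 (r x')) := rfl

lemma inflM_add (F F' : M j A) :
    inflM j A j' A' r ρ hcomm φ hφ (F + F') =
      inflM j A j' A' r ρ hcomm φ hφ F + inflM j A j' A' r ρ hcomm φ hφ F' := by
  apply Subtype.ext
  funext x'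
  exact map_add φ _ _

lemma inflM_zero : inflM j A j' A' r ρ hcomm φ hφ 0 = 0 := by
  apply Subtype.ext
  funext x'
  exact map_zero φ

/-- inflation is `r`-equivariant. -/
lemma inflM_rho (g' : G') (F : M j A) :
    (M j' A').ρ g' (inflM j A j' A' r ρ hcomm φ hφ F) =
      inflM j A j' A' r ρ hcomm φ hφ ((M j A).ρ (r g') F) := by
  apply Subtype.ext
  funext x'
  change φ (F.1 (r (x' * g'))) = φ (F.1 (r x' * r g'))
  rw [map_mul]

/-- inflation of 2-cochains. -/
def inflCo (f : G × G → M j A) : G' × G' → M j' A' :=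
  fun x => inflM j A j' A' r ρ hcomm φ hφ (f (r x.1, r x.2))

lemma inflCo_apply (f : G × G → M j A) (g' h' : G') :
    inflCo j A j' A' r ρ hcomm φ hφ f (g', h') =
      inflM j A j' A' r ρ hcomm φ hφ (f (r g', r h')) := rfl

/-- the local inflation of 2-cochains along `(ρ, φ)`. -/
def inflLoc (c : D × D → A) : D' × D' → A' := fun a => φ (c (ρ a.1, ρ a.2))

/-- **localisation commutes with inflation.** -/
theorem loc_inflCo (x' : G') (f : G × G → M j A) :
    loc j' A' x' (inflCo j A j' A' r ρ hcomm φ hφ f) =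
      inflLoc A A' ρ φ (loc j A (r x') f) := by
  funext ⟨a, b⟩
  simp only [loc_apply, inflLoc, inflCo_apply, inflM_apply]
  have e : ∀ c : D', r (x'⁻¹ * j' c * x') = (r x')⁻¹ * j (ρ c) * r x' := by
    intro c
    rw [map_mul, map_mul, map_inv, hcomm]
  rw [e a, e b]

include hcomm in
/-- the twisted subgroups correspond. -/
theorem twSub_comap (H : Subgroup G) (x' : G') :
    twSub j' (H.comap r) x' = (twSub j H (r x')).comap ρ := by
  ext d'
  rw [mem_twSub, Subgroup.mem_comap, Subgroup.mem_comap, mem_twSub, map_mul, map_mul, map_inv,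
    hcomm]

include hcomm in
/-- double cosets correspond (forward). -/
lemma inDC_map {H : Subgroup G} {x' y' : G'} (h : InDC j' (H.comap r) x' y') :
    InDC j H (r x') (r y') := by
  obtain ⟨τ, h', e⟩ := h
  refine ⟨ρ τ, ⟨r (h' : G'), h'.2⟩, ?_⟩
  rw [e, map_mul, map_mul, hcomm]

include hcomm in
/-- double cosets correspond (backward), for surjective `r`, `ρ`. -/
lemma inDC_of_map (hρ : Function.Surjective ρ) {H : Subgroup G}
    {x' y' : G'} (h : InDC j H (r x') (r y')) : InDC j' (H.comap r) x' y' := by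
  obtain ⟨τ, hh, e⟩ := h
  obtain ⟨τ', rfl⟩ := hρ τ
  refine ⟨τ', ⟨(j' τ' * x')⁻¹ * y', ?_⟩, by group⟩
  rw [Subgroup.mem_comap, map_mul, map_inv, map_mul, hcomm, e]
  have : (j (ρ τ') * r x')⁻¹ * (j (ρ τ') * r x' * (hh : G)) = (hh : G) := by group
  rw [this]
  exact hh.2

include hcomm in
/-- **systems of representatives correspond.** -/
theorem isRepr_image [DecidableEq G] (hr : Function.Surjective r) (hρ : Function.Surjective ρ)
    {H : Subgroup G} {R' : Finset G'} (hR' : IsRepr j' (H.comap r) R') :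
    IsRepr j H (R'.image r) ∧ Set.InjOn r R' := by
  refine ⟨⟨fun g => ?_, fun x hx y hy hxy => ?_⟩, fun x' hx' y' hy' he => ?_⟩
  · obtain ⟨g', rfl⟩ := hr g
    obtain ⟨x', hx', hd⟩ := hR'.1 g'
    exact ⟨r x', Finset.mem_image_of_mem r hx', inDC_map j j' r ρ hcomm hd⟩
  · obtain ⟨x', hx', rfl⟩ := Finset.mem_image.1 hx
    obtain ⟨y', hy', rfl⟩ := Finset.mem_image.1 hy
    rw [hR'.2 x' hx' y' hy' (inDC_of_map j j' r ρ hcomm hρ hxy)]
  · apply hR'.2 x' hx' y' hy'
    apply inDC_of_map j j' r ρ hcomm hρ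
    rw [he]
    exact inDC_refl j H (r y')

/-! ### the level change -/

variable {T : Type*} [AddCommGroup T]

/-- inflation as an additive map. -/
def inflMAdd : M j A →+ M j' A' where
  toFun := inflM j A j' A' r ρ hcomm φ hφ
  map_zero' := inflM_zero j A j' A' r ρ hcomm φ hφ
  map_add' := inflM_add j A j' A' r ρ hcomm φ hφ

lemma inflMAdd_apply (F : M j A) :
    inflMAdd j A j' A' r ρ hcomm φ hφ F = inflM j A j' A' r ρ hcomm φ hφ F := rfl

/-- inflation preserves cocycles. -/
lemma inflCo_isCocOn {H : Subgroup G} {f : G × G → M j A} (hf : IsCocOn (M j A) H f) :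
    IsCocOn (M j' A') (H.comap r) (inflCo j A j' A' r ρ hcomm φ hφ f) := by
  intro g hg a ha l hl
  have h := congrArg (inflMAdd j A j' A' r ρ hcomm φ hφ) (hf (r g) hg (r a) ha (r l) hl)
  rw [map_sub, map_add, map_sub, map_zero] at h
  have e1 := inflM_rho j A j' A' r ρ hcomm φ hφ g (f (r a, r l))
  simp only [inflCo_apply, map_mul]
  rw [e1]
  exact h

/-- **LEVEL CHANGE OF THE COINDUCED SYSTEM.** -/
theorem coindSys_infl [Finite G] [Finite D] [Finite G'] [Finite D']
    (hr : Function.Surjective r) (hρ : Function.Surjective ρ) (I : Sys A T) (I' : Sys A' T)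
    (hloc : ∀ (N : Subgroup D) (c : D × D → A), IsCocOn A N c →
      I'.S (N.comap ρ) (inflLoc A A' ρ φ c) = I.S N c)
    (H : Subgroup G) (f : G × G → M j A) (hf : IsCocOn (M j A) H f) :
    (coindSys (j := j') I').S (H.comap r) (inflCo j A j' A' r ρ hcomm φ hφ f) =
      (coindSys (j := j) I).S H f := by
  classical
  rw [coindSys_S, coindSys_S]
  obtain ⟨hR, hinj⟩ := isRepr_image j j' r ρ hcomm hr hρ (isRepr_reps (j := j') (H.comap r))
  rw [coindS_eq_sum I hf hR, Finset.sum_image hinj]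
  unfold coindS
  refine Finset.sum_congr rfl (fun x' _ => ?_)
  unfold term
  rw [loc_inflCo, twSub_comap j j' r ρ hcomm]
  exact hloc _ _ (loc_isCocOn (r x') hf)

end Fermat.Agent.S55.IdeleCoh54.CoindInfl
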