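/-
S55 / 36b-IDELE-COH (helper54), file 8: the field `fullDeg` of helper91's `FinLayerHyp` (= helper99's
`TowerModelHyp`) for the D2 idele sequence `Res_H (Lˣ → J_S(L) × I^S(L) → C_S(L))`, in the LITERAL
shape, for `invJ := SysH2.toH2top (SysH2.restrict H I)` (the `invJ` of helper37's
`SysH2.invJ_push₂_carryH2`, so that `recT` and `fullDeg` speak about the same map), `I` ANY total
system on `J_S(L) × I^S(L)` whose ideal part is `IdealSys.idealSys`.

* `carry_eq_of_val_mul`: the carry cochain of a character divided by `d` (generic).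
* `sysAdd_comap_inr`: the hypothesis `hI` for a total system of the shape
  `sysAdd (Js.comap pr₁) (Is.comap pr₂)`.
* `invJ_carryH2_inr`: the invariant of the carry class of an ideal (outside `S`).
* `fullDeg_of_ideal`: from an `H`-invariant ideal `z` whose `idealSys`-value has order `p^m` to the
  class `c₀` of the layer.
* **`exists_fullDeg`**, **`fullDeg_towerCharK`**: the literal field (consuming helper6's
  `FullDeg6.exists_idealSys_carry_addOrderOf`).
-/
import Mathlib
import Fermat.Agent.S55.FullDeg6.IdealFull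
import Fermat.Agent.S55.CycloRecip37.SysH2
import Fermat.Agent.S55.GlobalInv91.CycInst
import Fermat.Agent.S55.CLDescent35.Hilbert90

set_option autoImplicit false

namespace Fermat.Agent.S55.IdeleCoh54.FullDeg

open groupCohomology CategoryTheory
open Fermat.Agent.S55.GlobalInv91 Fermat.Agent.S55.CycloRecip37
  Fermat.Agent.S55.CycloRecip37.SysH2 Fermat.Agent.S55.CycloRecip37.DescendK
  Fermat.Agent.S55.IdeleVal44 Fermat.Agent.S55.IdeleCoh54.UnrSum
  Fermat.Agent.S55.IdeleCoh54.IdealSys Fermat.Agent.S55.Idele73.Basic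
  Fermat.Agent.S55.CLDescent35.Hilbert90 Fermat.Agent.S55.QZ33

/-! ## Carries of a divided character -/

section Generic

universe u v

lemma carryNat_mul {n n' d : ℕ} [NeZero n] [NeZero n'] (hn : n' = d * n) (x y : ZMod n)
    (x' y' : ZMod n') (hx : x'.val = d * x.val) (hy : y'.val = d * y.val) :
    carryNat n' x' y' = carryNat n x y := by
  unfold carryNat
  have hd : 0 < d := by
    rcases Nat.eq_zero_or_pos d with h | h
    · exfalso
      apply NeZero.ne n'
      rw [hn, h, zero_mul]
    · exact h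
  rw [hx, hy, hn, ← mul_add]
  exact Nat.mul_div_mul_left _ _ hd

variable {k Γ : Type u} [CommRing k] [Group Γ] (C : Rep.{v, u, u} k Γ)

/-- **the carry cochain of a divided character**: if `χ' = d · χ` on values (`n' = d * n`), the
carry cochains of `χ'` and `χ` agree. -/
theorem carry_eq_of_val_mul {n n' d : ℕ} [NeZero n] [NeZero n'] (hn : n' = d * n)
    (χ : Γ →* Multiplicative (ZMod n)) (χ' : Γ →* Multiplicative (ZMod n'))
    (hval : ∀ g : Γ, (chiVal χ' g).val = d * (chiVal χ g).val) (a : C) :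
    carry C χ' a = carry C χ a := by
  funext x
  rw [carry, carry]
  congr 1
  exact carryNat_mul hn _ _ _ _ (hval x.1) (hval x.2)

end Generic

/-! ## The ideal part of a total system -/

section Total

variable {k : Type} [CommRing k] {G : Type} [Group G] (A B : Rep.{0, 0, 0} k G)
  {T : Type*} [AddCommGroup T]

/-- the ideal part of a total system `Js ∘ pr₁ + Is ∘ pr₂` on a product is `Is` (the hypothesis
`hI` below). -/
theorem sysAdd_comap_inr (Js : GSys.Sys A T) (Is : GSys.Sys B T) (H : Subgroup G)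
    (f : G × G → B) :
    ((sysAdd (Js.comap (prodRep.fst A B)) (Is.comap (prodRep.snd A B))).comap
      (prodRep.inr A B)).S H f = Is.S H f := by
  change Js.S H (fun x => prodRep.p1 A B ((prodRep.inr A B).hom (f x))) +
    Is.S H (fun x => prodRep.p2 A B ((prodRep.inr A B).hom (f x))) = Is.S H f
  have h1 : (fun x => prodRep.p1 A B ((prodRep.inr A B).hom (f x))) = 0 := rfl
  have h2 : (fun x => prodRep.p2 A B ((prodRep.inr A B).hom (f x))) = f := rfl
  rw [h1, h2, GSys.Sys.zero, zero_add]

/-- the `S`-part of a total system `Js ∘ pr₁ + Is ∘ pr₂` on a product is `Js`. -/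
theorem sysAdd_comap_inl (Js : GSys.Sys A T) (Is : GSys.Sys B T) (H : Subgroup G)
    (f : G × G → A) :
    ((sysAdd (Js.comap (prodRep.fst A B)) (Is.comap (prodRep.snd A B))).comap
      (prodRep.inl A B)).S H f = Js.S H f := by
  change Js.S H (fun x => prodRep.p1 A B ((prodRep.inl A B).hom (f x))) +
    Is.S H (fun x => prodRep.p2 A B ((prodRep.inl A B).hom (f x))) = Js.S H f
  have h1 : (fun x => prodRep.p1 A B ((prodRep.inl A B).hom (f x))) = f := rfl
  have h2 : (fun x => prodRep.p2 A B ((prodRep.inl A B).hom (f x))) = 0 := rfl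
  rw [h1, h2, GSys.Sys.zero, add_zero]

end Total

/-! ## The field `fullDeg` -/

section Main

attribute [local instance] factPrimes44 fintypeGalL

variable {L : IntermediateField ℚ Qbar} [Normal ℚ L] [FiniteDimensional ℚ L]
  {S : Finset Nat.Primes} {T : Type*} [AddCommGroup T] (θ : ℚ →+ T) (hθ : θ 1 = 0)

/-- **the invariant of the carry class of an ideal**: for a total system `I` with ideal part
`idealSys`, a GLOBAL character `χ'` and an `H`-invariant element `a = (0, z)`. -/
theorem invJ_carryH2_inr (I : GSys.Sys (JIS L S) T)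
    (hI : ∀ (H' : Subgroup (GalL L)) (f : GalL L × GalL L → IS L S),
      (I.comap (prodRep.inr (JS L S) (IS L S))).S H' f = (idealSys L S θ hθ).S H' f)
    (H : Subgroup (GalL L)) {n : ℕ} [NeZero n] (χ' : GalL L →* Multiplicative (ZMod n))
    (z : IS L S) (a : (resH (JIS L S) H).ρ.invariants)
    (ha : (a : resH (JIS L S) H) = (prodRep.inr (JS L S) (IS L S)).hom z) :
    toH2top (restrict H I) (carryH2 (resH (JIS L S) H) (χ'.comp H.subtype) a) =
      (idealSys L S θ hθ).S H (carry (IS L S) χ' z) := by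
  rw [toH2top_carryH2, ha]
  have h1 := restrict_S_top_carry H I χ' ((prodRep.inr (JS L S) (IS L S)).hom z)
  rw [h1, ← hI]
  change I.S H _ = I.S H _
  congr 1
  funext x
  simp only [carry, map_nsmul]

/-- **from an ideal of full degree to the class of the layer.**  `χ` a character of `H` which is a
global character `χ'` divided by `d`; `z` an `H`-invariant ideal outside `S` whose `idealSys`-value
on the carry cochain of `χ'` has order `N`. -/
theorem fullDeg_of_ideal (h : UnrOutside L S) (I : GSys.Sys (JIS L S) T)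
    (hI : ∀ (H' : Subgroup (GalL L)) (f : GalL L × GalL L → IS L S),
      (I.comap (prodRep.inr (JS L S) (IS L S))).S H' f = (idealSys L S θ hθ).S H' f)
    (H : Subgroup (GalL L)) {n n' d : ℕ} [NeZero n] [NeZero n'] (hn : n' = d * n)
    (χ : H →* Multiplicative (ZMod n)) (χ' : GalL L →* Multiplicative (ZMod n'))
    (hval : ∀ g : H, (chiVal χ' (g : GalL L)).val = d * (chiVal χ g).val)
    (z : IS L S) (hz : ∀ g ∈ H, (IS L S).ρ g z = z) (N : ℕ)
    (hord : addOrderOf ((idealSys L S θ hθ).S H (carry (IS L S) χ' z)) = N) :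
    ∃ c₀ : H2 ((sesRes h H).X₂.quotientToInvariants χ.ker),
      addOrderOf (toH2top (restrict H I) ((infl₂ (sesRes h H).X₂ χ.ker).hom c₀)) = N := by
  -- the invariant element `(0, z)` of `Res_H (J_S × I^S)`
  have hinv : ∀ g : H, (resH (JIS L S) H).ρ g ((prodRep.inr (JS L S) (IS L S)).hom z) =
      (prodRep.inr (JS L S) (IS L S)).hom z := by
    intro g
    change (JIS L S).ρ (g : GalL L) ((prodRep.inr (JS L S) (IS L S)).hom z) = _
    rw [← Rep.hom_comm_apply, hz g g.2]
  let a : (resH (JIS L S) H).ρ.invariants := ⟨(prodRep.inr (JS L S) (IS L S)).hom z, hinv⟩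
  refine ⟨carryH2 ((resH (JIS L S) H).quotientToInvariants χ.ker) (chiBar χ)
    (toQInv χ (resH (JIS L S) H) a), ?_⟩
  change addOrderOf (toH2top (restrict H I) ((infl₂ (resH (JIS L S) H) χ.ker).hom _)) = N
  rw [infl₂_carryH2]
  have hc : carryH2 (resH (JIS L S) H) χ a =
      carryH2 (resH (JIS L S) H) (χ'.comp H.subtype) a := by
    rw [carryH2_apply, carryH2_apply]
    congr 1
    exact Subtype.ext (carry_eq_of_val_mul (resH (JIS L S) H) hn χ (χ'.comp H.subtype)
      (fun g => hval g) _).symm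
  rw [hc, invJ_carryH2_inr θ hθ I hI H χ' z a rfl]
  exact hord

end Main

/-! ## The literal field, `T = ℚ/ℤ` -/

section QZ

open Fermat.Agent.S55.FullDeg6 Fermat.Agent.S55.CycloGlobal87

attribute [local instance] factPrimes44 fintypeGalL

variable (p : ℕ) [hp : Fact p.Prime] {L : IntermediateField ℚ Qbar} [Normal ℚ L]
  [FiniteDimensional ℚ L] {S : Finset Nat.Primes}

/-- **the field `fullDeg` of `FinLayerHyp (sesRes h H) p m χ invJ`** (helper91) /
`TowerModelHyp` (helper99) for the D2 sequence, `invJ := toH2top (restrict H I)`: `L` unramified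
outside `S`, `I` a total system with ideal part `idealSys L S θ hθ` (`θ : ℚ → ℚ/ℤ` the projection),
`χ` a surjective character of `H` onto `ℤ/p^m` (`m ≠ 0`) such that `p^j · χ` is the restriction of a
global character `χ'` mod `n = p^j * p^m`. -/
theorem exists_fullDeg (hL : L.IsUnramifiedOutside S) (h : UnrOutside L S) (θ : ℚ →+ QZ)
    (hθ : θ 1 = 0) (hθc : ∀ x : ℚ, θ x = ((x : ℚ) : QZ)) (I : GSys.Sys (JIS L S) QZ)
    (hI : ∀ (H' : Subgroup (GalL L)) (f : GalL L × GalL L → IS L S),
      (I.comap (prodRep.inr (JS L S) (IS L S))).S H' f = (idealSys L S θ hθ).S H' f)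
    (H : Subgroup (GalL L)) {n : ℕ} [NeZero n] (j m : ℕ) (hn : n = p ^ j * p ^ m) (hm : m ≠ 0)
    (χ' : GalL L →* Multiplicative (ZMod n)) (χ : H →* Multiplicative (ZMod (p ^ m)))
    (hχ : Function.Surjective χ)
    (hval : ∀ g : H, (chiVal χ' (g : GalL L)).val = p ^ j * (chiVal χ g).val) :
    ∃ c₀ : H2 ((sesRes h H).X₂.quotientToInvariants χ.ker),
      addOrderOf (toH2top (restrict H I) ((infl₂ (sesRes h H).X₂ χ.ker).hom c₀)) = p ^ m := by
  obtain ⟨z, hz, hord⟩ :=
    exists_idealSys_carry_addOrderOf p L S hL θ hθ hθc H j m hn hm χ' χ hχ hval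
  exact fullDeg_of_ideal θ hθ h I hI H hn χ χ' hval z hz (p ^ m) hord

/-- **the field `fullDeg` for the cyclotomic tower over `K = L^H`** (`K ∩ ℚ_∞ = ℚ_j`,
`L ⊇ ℚ_{j+m}`, `m ≥ 1`; `χ := towerCharK`, helper87). -/
theorem fullDeg_towerCharK (hp2 : p ≠ 2) (hL : L.IsUnramifiedOutside S) (h : UnrOutside L S)
    (θ : ℚ →+ QZ) (hθ : θ 1 = 0) (hθc : ∀ x : ℚ, θ x = ((x : ℚ) : QZ))
    (I : GSys.Sys (JIS L S) QZ)
    (hI : ∀ (H' : Subgroup (GalL L)) (f : GalL L × GalL L → IS L S),
      (I.comap (prodRep.inr (JS L S) (IS L S))).S H' f = (idealSys L S θ hθ).S H' f)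
    (H : Subgroup (GalL L)) (j m : ℕ) (hle : towerField p (j + m) ≤ L)
    (hj : ∀ g ∈ H,
      towerCharL p L hp2 j ((towerField_mono p (Nat.le_add_right j m)).trans hle) g = 1)
    (hm : 1 ≤ m)
    (hex : ∃ g ∈ H, towerCharL p L hp2 (j + 1)
      ((towerField_mono p (Nat.add_le_add_left hm j)).trans hle) g ≠ 1) :
    ∃ c₀ : H2 ((sesRes h H).X₂.quotientToInvariants (towerCharK p hp2 L H j m hle hj).ker),
      addOrderOf (toH2top (restrict H I)
        ((infl₂ (sesRes h H).X₂ (towerCharK p hp2 L H j m hle hj).ker).hom c₀)) = p ^ m := by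
  have : NeZero (p ^ (j + m)) := ⟨pow_ne_zero _ hp.out.ne_zero⟩
  refine exists_fullDeg p hL h θ hθ hθc I hI H j m (pow_add p j m)
    (Nat.one_le_iff_ne_zero.mp hm) (towerCharL p L hp2 (j + m) hle)
    (towerCharK p hp2 L H j m hle hj) (towerCharK_surjective p hp2 L H j m hle hj hm hex) ?_
  intro g
  rw [← val_chiVal_towerCharMulL p hp2 L j m hle (g : GalL L)]
  exact val_towerCharMulL_eq p hp2 L H j m hle hj g

end QZ

end Fermat.Agent.S55.IdeleCoh54.FullDeg
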