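/-
S55 / 36b-IDELE-COH (helper54), file 12: the Sys-level input (Σ-full) of helper91's `D2Wire`
(report #2654 (3)), LITERAL: for a total system `I` on `J_S(L) × I^S(L)` whose ideal part is
`idealSys`, every subgroup `N ≤ Gal(L/ℚ)` and the tower character of level `j + m` (`towerCharK`
over `L^N` onto `ℤ/p^m`), there is an `N`-invariant idele `z` with
`addOrderOf (I.S N (carry (JIS L S) (towerCharL (j+m)) z)) = p^m`.
`sigmaFull_totalSysU`: the same for helper37's `RecT.totalSysU hp2 L S`.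
-/
import Mathlib
import Fermat.Agent.S55.IdeleCoh54.FullDeg
import Fermat.Agent.S55.CycloRecip37.RecTSeam

set_option autoImplicit false

namespace Fermat.Agent.S55.IdeleCoh54.SigmaFull

open Fermat.Agent.S55.GlobalInv91 Fermat.Agent.S55.CycloRecip37
  Fermat.Agent.S55.IdeleVal44 Fermat.Agent.S55.IdeleCoh54.IdealSys
  Fermat.Agent.S55.Idele73.Basic Fermat.Agent.S55.QZ33 Fermat.Agent.S55.FullDeg6
  Fermat.Agent.S55.CycloGlobal87

attribute [local instance] factPrimes44
attribute [local instance 2000] fintypeGalL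

variable {p : ℕ} [hp : Fact p.Prime] {L : IntermediateField ℚ Qbar} [Normal ℚ L]
  [FiniteDimensional ℚ L] {S : Finset Nat.Primes}

/-- the value of a total system on the carry cochain of an ideal `(0, z)`. -/
theorem S_carry_inr {T : Type*} [AddCommGroup T] (θ : ℚ →+ T) (hθ : θ 1 = 0)
    (I : GSys.Sys (JIS L S) T)
    (hI : ∀ (H' : Subgroup (GalL L)) (f : GalL L × GalL L → IS L S),
      (I.comap (prodRep.inr (JS L S) (IS L S))).S H' f = (idealSys L S θ hθ).S H' f)
    (N : Subgroup (GalL L)) {n : ℕ} [NeZero n] (χ : GalL L →* Multiplicative (ZMod n))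
    (z : IS L S) :
    I.S N (carry (JIS L S) χ ((prodRep.inr (JS L S) (IS L S)).hom z)) =
      (idealSys L S θ hθ).S N (carry (IS L S) χ z) := by
  rw [← hI]
  change I.S N _ = I.S N _
  congr 1
  funext x
  simp only [carry, map_nsmul]

/-- **(Σ-full), generic total system.** -/
theorem sigmaFull (hp2 : p ≠ 2) (hL : L.IsUnramifiedOutside S) (θ : ℚ →+ QZ) (hθ : θ 1 = 0)
    (hθc : ∀ x : ℚ, θ x = ((x : ℚ) : QZ)) (I : GSys.Sys (JIS L S) QZ)
    (hI : ∀ (H' : Subgroup (GalL L)) (f : GalL L × GalL L → IS L S),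
      (I.comap (prodRep.inr (JS L S) (IS L S))).S H' f = (idealSys L S θ hθ).S H' f)
    (N : Subgroup (GalL L)) (j m : ℕ) (h : towerField p (j + m) ≤ L)
    (hj : ∀ g ∈ N,
      towerCharL p L hp2 j ((towerField_mono p (Nat.le_add_right j m)).trans h) g = 1)
    (hm : 1 ≤ m) (hsurj : Function.Surjective (towerCharK p hp2 L N j m h hj)) :
    ∃ z : JIS L S, (∀ g ∈ N, (JIS L S).ρ g z = z) ∧
      addOrderOf (I.S N (carry (JIS L S) (towerCharL p L hp2 (j + m) h) z)) = p ^ m := by
  have : NeZero (p ^ (j + m)) := ⟨pow_ne_zero _ hp.out.ne_zero⟩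
  obtain ⟨z, hz, hord⟩ := exists_idealSys_carry_addOrderOf p L S hL θ hθ hθc N j m
    (pow_add p j m) (Nat.one_le_iff_ne_zero.mp hm) (towerCharL p L hp2 (j + m) h)
    (towerCharK p hp2 L N j m h hj) hsurj (fun g => by
      rw [← val_chiVal_towerCharMulL p hp2 L j m h (g : GalL L)]
      exact val_towerCharMulL_eq p hp2 L N j m h hj g)
  refine ⟨(prodRep.inr (JS L S) (IS L S)).hom z, fun g hg => ?_, ?_⟩
  · rw [← Rep.hom_comm_apply, hz g hg]
  · rw [S_carry_inr θ hθ I hI N]
    exact hord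

/-- **(Σ-full) for `Jtot := RecT.totalSysU hp2 L S`** (helper37), the literal shape of helper91's
report #2654 (3). -/
theorem sigmaFull_totalSysU (hp2 : p ≠ 2) (hL : L.IsUnramifiedOutside S)
    (N : Subgroup (GalL L)) (j m : ℕ) (h : towerField p (j + m) ≤ L)
    (hj : ∀ g ∈ N,
      towerCharL p L hp2 j ((towerField_mono p (Nat.le_add_right j m)).trans h) g = 1)
    (hm : 1 ≤ m) (hsurj : Function.Surjective (towerCharK p hp2 L N j m h hj)) :
    ∃ z : JIS L S, (∀ g ∈ N, (JIS L S).ρ g z = z) ∧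
      addOrderOf ((RecT.totalSysU hp2 L S).S N
        (carry (JIS L S) (towerCharL p L hp2 (j + m) h) z)) = p ^ m :=
  sigmaFull hp2 hL Fermat.Agent.S55.FrobSys98.Tame.qzProj Fermat.Agent.S55.FrobSys98.Tame.qzProj_one
    (fun _ => rfl) (RecT.totalSysU hp2 L S) (RecTSeam.totalSysU_comap_inr hp2) N j m h hj hm hsurj

end Fermat.Agent.S55.IdeleCoh54.SigmaFull
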